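import Fermat.Agent.BadRed.Norm

/-!
# Endomorphisms commuting with the reduction on the first sheet
-/

set_option autoImplicit false
set_option linter.style.haveILetI false
set_option linter.unusedSectionVars false

noncomputable section

namespace FLTAgent.BadRed

open AlgebraicCurve FLTAgent.Curves FLTAgent.Specialization IntermediateField

variable {L k : Type*} [Field L] [Field k] {A : ValuationSubring L} {π : A →+* k}
  {FC Fb F : Type*} [Field FC] [Field Fb] [Field F] [Algebra L FC]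
  [Algebra k Fb] [Algebra L F] [IsAlgClosed L] [IsFunctionField L FC] [IsFunctionField L F]
  [IsAlgClosed k] [IsFunctionField k Fb] {q : ℕ} (S : Sheet π FC Fb F q)

namespace Sheet

/-- Every element is a combination of a separated family. -/
theorem exists_col_coord {d : L} {v : Unit ⊕ Fin q → F}
    (hv : ∀ z, (S.pair d).Res (v z) (S.colRed z)) (f : F) :
    ∃ a : Unit ⊕ Fin q → FC, ∑ z, S.α (a z) * v z = f := by
  letI := algebraAlong S.α
  haveI := isScalarTower_along S.α
  haveI : Module.Finite FC F := Kronecker.moduleFinite_of_functionField L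
  have hli : LinearIndependent FC v := by
    rw [Fintype.linearIndependent_iff]
    intro a ha
    by_contra hne
    obtain ⟨s, c, -, hc, r⟩ := col_scale hv (a := a) fun h => hne fun z => congrFun h z
    have ha' : ∑ z, S.α (a z) * v z = 0 := ha
    rw [ha', mul_zero] at r
    exact hc ((S.pair d).unique r (S.pair d).res_zero)
  have h := hli.span_eq_top_of_card_eq_finrank (by
    rw [show Module.finrank FC F = q + 1 from S.finrankAlong_α]; simp [add_comm])
  exact (Submodule.mem_span_range_iff_exists_fun FC).1 (h.symm ▸ Submodule.mem_top)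

/-- An endomorphism fixing both coordinates which commutes with the reduction of the field below
commutes with the reduction on the first sheet. -/
theorem res₁_map (ψ : F →+* F) (σ : FC → FC) (σb : Fb →+* Fb)
    (hα : ∀ a, ψ (S.α a) = S.α (σ a)) (hX : ψ S.X = S.X)
    (hY : ψ (S.β S.MC.x) = S.β S.MC.x)
    (hσ : ∀ a c, S.MC.Res a c → S.MC.Res (σ a) (σb c))
    {f : F} {g : Fb} (hf : S.R₁.Res f g) : S.R₁.Res (ψ f) (σb g) := by
  classical
  have hb := S.pair_β S.MC.x_res
  rw [S.V_xb] at hb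
  have hn := LRed.res_sub hb (S.pair_pow S.pair_X q |> fun h => by rwa [one_pow] at h)
  have hd := LRed.res_sub hb (S.pair_pow hb (q ^ 2) |> fun h => by rwa [one_pow] at h)
  set D := S.β S.MC.x - (S.β S.MC.x) ^ q ^ 2
  have hq := S.one_lt
  have h1 : (S.MC.xb ^ q - (S.MC.xb ^ q) ^ q ^ 2 : Fb) ≠ 0 := by
    rw [sub_ne_zero, ← pow_mul]
    exact fun h => absurd (S.xb_pow_inj h) (by nlinarith)
  have h2 : (S.MC.xb - S.MC.xb ^ q ^ 2 : Fb) ≠ 0 := by
    rw [sub_ne_zero]
    intro h
    have := S.xb_pow_inj (a := 1) (b := q ^ 2) (by rwa [pow_one])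
    nlinarith
  obtain ⟨hd1, hd2⟩ := hd
  obtain ⟨hn1, hn2⟩ := hn
  simp only [one_smul, Prod.fst_sub, Prod.snd_sub, Prod.pow_fst, Prod.pow_snd] at hd1 hd2 hn1 hn2
  set e : F := 1 - (S.β S.MC.x - S.X ^ q) / D with he
  have hψe : ψ e = e := by
    simp only [he, D, map_sub, map_one, map_div₀, map_pow, hX, hY]
  have he₁ : S.R₁.Res e 1 := by simpa using S.R₁.res_one.sub (hn1.div hd1 h1)
  have he₂ : S.R₂.Res e 0 := by
    have := S.R₂.res_one.sub (hn2.div hd2 h2)
    rwa [show ((S.MC.xb ^ q) ^ q : Fb) = S.MC.xb ^ q ^ 2 by rw [← pow_mul, sq], div_self h2,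
      sub_self] at this
  set v : Unit ⊕ Fin q → F := Sum.elim (fun _ => e) fun i => S.β S.MC.x ^ (i : ℕ) * (1 - e)
  have hv : ∀ z, (S.pair 1).Res (v z) (S.colRed z) := by
    rintro (u | i)
    · exact ⟨he₁, by rw [one_smul]; exact he₂⟩
    · have h := S.pair_mul (S.pair_pow (S.pair_β S.MC.x_res) i)
        (show (S.pair 1).Res (1 - e) (0, 1) from
          ⟨by simpa using S.R₁.res_one.sub he₁,
            by rw [one_smul]; simpa using S.R₂.res_one.sub he₂⟩)
      rw [one_pow, one_mul] at h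
      convert h using 1
      · simp [v]
      · simp [colRed]
  have hψv : ∀ z, ψ (v z) = v z := by
    rintro (u | i)
    · exact hψe
    · simp [v, hY, hψe]
  have both : ∀ {y : F} {g₁ g₂ : Fb}, S.R₁.Res y g₁ → S.R₂.Res y g₂ →
      S.R₁.Res (ψ y) (σb g₁) := by
    intro y g₁ g₂ r₁ r₂
    obtain ⟨a, rfl⟩ := S.exists_col_coord hv y
    have hr : (S.pair 1).Res (∑ z, S.α (a z) * v z) (g₁, g₂) :=
      ⟨r₁, by rw [one_smul]; exact r₂⟩
    choose c hc using fun z => S.MC.exists_res_of_mem (col_coord hv hr z)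
    have hg : g₁ = c (Sum.inl ()) :=
      congrArg Prod.fst ((S.pair 1).unique hr (colComb_res hv hc))
    have h' := (colComb_res hv (a := fun z => σ (a z)) (c := fun z => σb (c z))
      fun z => hσ _ _ (hc z)).1
    have e' : ψ (∑ z, S.α (a z) * v z) = ∑ z, S.α (σ (a z)) * v z := by
      rw [map_sum]
      exact Finset.sum_congr rfl fun z _ => by rw [map_mul, hα, hψv]
    rw [e', hg]
    exact h'
  rcases eq_or_ne f 0 with rfl | hf0
  · rw [hf.unique S.R₁.res_zero, map_zero, map_zero]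
    exact S.R₁.res_zero
  obtain ⟨e₁, -, h₁, -, hs₁, -⟩ := S.exists_sep
  obtain ⟨c, hc, -, hc₂⟩ := S.exists_bounded hf0
  obtain ⟨g₂, hg₂⟩ := S.R₂.exists_res_of_mem hc₂
  obtain ⟨N₁, hN₁⟩ := hs₁ c⁻¹
  obtain ⟨N₂, hN₂⟩ := hs₁ 1
  have hE : S.R₁.Res (e₁ ^ (N₁ + N₂)) 1 := by simpa using h₁.pow (N₁ + N₂)
  have hE₂ : S.R₂.Res (e₁ ^ (N₁ + N₂)) 0 := by simpa using hN₂ (N₁ + N₂) le_add_self
  have hfE : S.R₂.Res (f * e₁ ^ (N₁ + N₂)) 0 := by
    have h := hg₂.mul (hN₁ (N₁ + N₂) le_self_add)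
    rwa [mul_zero, smul_mul_smul_comm, mul_inv_cancel₀ hc, one_smul] at h
  have r1 := both (hf.mul hE) hfE
  have r2 := both hE hE₂
  rw [map_mul, mul_one] at r1
  rw [map_one] at r2
  have hne : ψ (e₁ ^ (N₁ + N₂)) ≠ 0 := r2.ne_zero one_ne_zero
  have h := r1.div r2 one_ne_zero
  rwa [mul_div_assoc, div_self hne, mul_one, div_one] at h

end Sheet

end FLTAgent.BadRed
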