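import Fermat.Agent.Lowering.P3.Kummer.Interface
import Fermat.Agent.Lowering.P3.Kummer.SheetMap

/-!
# Translations trivial modulo `l` on the first sheet
-/

set_option autoImplicit false
set_option linter.unusedSectionVars false
set_option linter.style.haveILetI false
set_option maxHeartbeats 1600000
set_option synthInstance.maxHeartbeats 400000

noncomputable section

open UpperHalfPlane hiding I I_re I_im
open Filter Topology Complex Function FLTAgent.ModEq FLTAgent.GoodModel ModularCurve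
open AlgebraicCurve FLTAgent.Curves IsLocalRing
open scoped MatrixGroups IntermediateField

namespace FLTAgent.Lowering.P3.Levels

open FLTAgent.DeligneSerre FLTAgent.Carayol

local notation "LL" => AlgebraicClosure ℚ

section Levels

variable {κ : LL →+* ℂ} {M0 N' l : ℕ} [NeZero M0] [NeZero N'] [NeZero l] [NeZero (M0 * N')]
  [NeZero (N' * l)] [NeZero (M0 * (N' * l))] (P' : Frame κ.range M0 (N' * l))

local notation "φ₀" => toLL κ
local notation "hφ₀" => toLL_surjective κ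

/-- `τ ↦ j(l τ)` at level `n l`. -/
theorem exists_jl [Fact l.Prime] :
    ∃ b : modRing κ.range (M0 * (N' * l)),
      (∀ g ∈ CongruenceSubgroup.Gamma0 l, transl g b = b) ∧
      (P'.redF φ₀ hφ₀ b : LaurentSeries LL) =
        qExpand LL l (P'.jj φ₀ hφ₀ : LaurentSeries LL) := by
  haveI : NeZero (M0 * (N' * l) * l) := ⟨Nat.mul_ne_zero (NeZero.ne _) (NeZero.ne l)⟩
  obtain ⟨ζ, hζ⟩ := exists_zeta κ (M0 * (N' * l) * l)
  set a := jm P'.ξ P'.hξ
  have ha : ∀ (g : SL(2, ℤ)) (z : ℍ), (a : ℍ → ℂ) (g • z) = (a : ℍ → ℂ) z := fun g z => by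
    rw [← transl_apply, transl_jm]
  have hinv : ∀ g ∈ CongruenceSubgroup.Gamma0 l, ∀ τ : ℍ,
      (a : ℍ → ℂ) (affPt l 0 1 (g • τ)) = (a : ℍ → ℂ) (affPt l 0 1 τ) := fun g hg τ => by
    obtain ⟨g', -, -, hgτ⟩ := exists_wconj (n := 1) (l := l) (Nat.coprime_one_left l)
      (H := grp0 1 l) (Or.inl rfl)
      (g := g) ⟨Or.inl (by rw [CongruenceSubgroup.Gamma_one_top]; exact Subgroup.mem_top _), hg⟩
    rw [← ha ModularGroup.S, hgτ, ha, ha]
  have hld : l ∣ M0 * (N' * l) := ⟨M0 * N', by ring⟩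
  have hmem : (fun τ => (a : ℍ → ℂ) (affPt l 0 1 τ)) ∈ modRing κ.range (M0 * (N' * l)) :=
    compMul_mem (dvd_mul_right _ l) (e := l) rfl ζ hζ a.2.1 fun g hg τ =>
      hinv g (Gamma_le_Gamma0' l (by
        have h := CongruenceSubgroup.Gamma_mem.mp hg
        rw [CongruenceSubgroup.Gamma_mem]
        obtain ⟨h00, h01, h10, h11⟩ := h
        exact ⟨by simpa only [map_intCast, map_one, map_zero] using congrArg (ZMod.castHom hld (ZMod l)) h00,
          by simpa only [map_intCast, map_one, map_zero] using congrArg (ZMod.castHom hld (ZMod l)) h01,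
          by simpa only [map_intCast, map_one, map_zero] using congrArg (ZMod.castHom hld (ZMod l)) h10,
          by simpa only [map_intCast, map_one, map_zero] using congrArg (ZMod.castHom hld (ZMod l)) h11⟩)) τ
  refine ⟨⟨_, hmem⟩, fun g hg => Subtype.ext (funext fun τ => ?_), ?_⟩
  · rw [transl_apply]
    exact hinv g hg τ
  · rw [Frame.jj, P'.coe_redF, P'.coe_redF, red, RingHom.comp_apply, RingHom.comp_apply,
      serM_eq (f := (⟨_, hmem⟩ : modRing κ.range (M0 * (N' * l))))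
        (sPairs_affPt_mul l (serM_spec a)), coeffMap_qExpand]

theorem psi_up_mem_of_conj {H : Subgroup SL(2, ℤ)} {g : SL(2, ℤ)}
    (hg : ∀ h ∈ H, g * h * g⁻¹ ∈ H) (x : fldQ P' H) :
    P'.psi φ₀ hφ₀ g (up H x) ∈ P'.fixedFld φ₀ hφ₀ H := by
  refine (P'.mem_fixedFld φ₀ hφ₀).2 fun h hh => ?_
  rw [P'.act_apply, P'.psi_psi,
    show g * h⁻¹ = g * h⁻¹ * g⁻¹ * g by rw [inv_mul_cancel_right], ← P'.psi_psi,
    psi_up_of_mem (hg _ (inv_mem hh))]

/-- Conjugation by `g ∈ Γ(l)` preserves `±Γ(n) ∩ Γ₀(l)`. -/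
theorem conj_mem_of_Gamma {g : SL(2, ℤ)} (hg : g ∈ CongruenceSubgroup.Gamma l) {h : SL(2, ℤ)}
    (hh : h ∈ grp0 (M0 * N') l) : g * h * g⁻¹ ∈ grp0 (M0 * N') l :=
  ⟨(pmGamma_normal _).conj_mem h hh.1 g,
    Subgroup.mul_mem _ (Subgroup.mul_mem _ (Gamma_le_Gamma0' l hg) hh.2)
      (Subgroup.inv_mem _ (Gamma_le_Gamma0' l hg))⟩

end Levels

theorem targetSheetPsi : TargetSheetPsi := by
  intro κ M0 N' l _ _ _ _ _ _ _ V _ _ d _ _ _ g g' hl hn f h hres
  set φ₀ := toLL κ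
  set hφ₀ := toLL_surjective κ
  set H := grp0 (M0 * N') l
  let u : d.F₀ →ₐ[LL] d.top.fixedFld φ₀ hφ₀ H :=
    ((d.top.psi φ₀ hφ₀ g').comp (up H)).codRestrict (d.top.fixedFld φ₀ hφ₀ H).toSubalgebra
      (psi_up_mem_of_conj d.top fun _ => conj_mem_of_Gamma hl)
  let ψ : d.F₀ →ₐ[LL] d.F₀ := (upEquiv (Or.inl rfl)).symm.toAlgHom.comp u
  have hψ : ∀ x : d.F₀, up H (ψ x) = d.top.psi φ₀ hφ₀ g' (up H x) := fun x =>
    up_symm (Or.inl rfl) (u x)
  have hlow : ∀ a : d.FC, d.low.psi φ₀ hφ₀ g' a = d.low.psi φ₀ hφ₀ g a := fun a => by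
    conv_lhs => rw [show g' = g * (g⁻¹ * g') by rw [mul_inv_cancel_left]]
    rw [← d.low.psi_psi, d.low.psi_of_mem φ₀ hφ₀ hn]
  have hinc : ∀ x : d.FC, up H (d.alpha x) = toTop d.low d.top x := fun x =>
    up_incl d.low d.top (inf_le_left : H ≤ pmGamma (M0 * N')) x
  have hα : ∀ a : d.FC, ψ (d.alpha a) = d.alpha (d.low.psi φ₀ hφ₀ g a) := fun a => by
    refine (up H).toRingHom.injective ?_
    show up H (ψ (d.alpha a)) = up H (d.alpha (d.low.psi φ₀ hφ₀ g a))
    rw [hψ, hinc, psi_toTop, hlow, hinc]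
  have hY : ψ (d.sheet.β d.sheet.MC.x) = d.sheet.β d.sheet.MC.x := by
    obtain ⟨b, hb, hbser⟩ := exists_jl d.top
    have e : up H (d.sheet.β d.sheet.MC.x) = d.top.redF φ₀ hφ₀ b := by
      refine Subtype.ext ?_
      rw [coe_up, d.coe_Y, hbser, d.top.coe_jj, jAt_one_left, jAt_one_left, jqNModC, jqNModC,
        qExpand_qExpand, qExpand_qExpand, qExpand_qExpand]
      congr 1
      ring_nf
    refine (up H).toRingHom.injective ?_
    show up H (ψ (d.sheet.β d.sheet.MC.x)) = up H (d.sheet.β d.sheet.MC.x)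
    rw [hψ, e, d.top.psi_redF, hb _ (Gamma_le_Gamma0' l hl)]
  have hX : ψ d.sheet.X = d.sheet.X := by
    show ψ (d.alpha (d.low.jj φ₀ hφ₀)) = d.alpha (d.low.jj φ₀ hφ₀)
    rw [hα, psi_jj]
  exact ⟨ψ f, hψ f, BadRed.Sheet.res₁_map d.sheet ψ.toRingHom
    (fun a => d.low.psi φ₀ hφ₀ g a) (d.fr.psi d.red₀ d.red₀_surj g).toRingHom hα hX hY
    (fun _ _ h' => d.res_psi g h') hres⟩

end FLTAgent.Lowering.P3.Levels
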