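import Fermat.Agent.DeligneSerre.Smooth.Genus

/-!
# Places of the field of level `±Γ(n)`

The coordinate is a local parameter up to a constant where `j` is finite, and every pole of `j`
has order exactly `n`.
-/

set_option autoImplicit false
set_option linter.unusedSectionVars false
set_option linter.style.haveILetI false
set_option maxHeartbeats 800000
set_option synthInstance.maxHeartbeats 100000

noncomputable section

open UpperHalfPlane hiding I I_re I_im
open Filter Topology Complex Function FLTAgent.ModEq FLTAgent.GoodModel ModularCurve Polynomial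
open AlgebraicCurve FLTAgent.Curves
open scoped MatrixGroups IntermediateField

namespace FLTAgent.Lowering.P3.Levels

open FLTAgent.DeligneSerre

variable {S : Subring ℂ} {M0 N' : ℕ} [NeZero M0] [NeZero N'] [NeZero (M0 * N')]
  (P : Frame S M0 N') {K : Type} [Field K] [IsAlgClosed K] (φ : S →+* K) (hφ : Surjective φ)
  [IsFunctionField K (P.fld φ)]

include hφ in
/-- Off the poles of `j` the coordinate less a constant is a local parameter. -/
theorem frame_ord_sub_eq_one {v : Place K (P.fld φ)} (hvj : 0 ≤ v.ord (P.jj φ hφ)) :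
    ∃ a : K, v.ord (P.xx φ hφ - algebraMap K (P.fld φ) a) = 1 := by
  classical
  haveI := P.isSeparable_xx φ hφ
  set x := P.xx φ hφ with hxdef
  have hx : Transcendental K x := P.xx_transcendental φ hφ
  have hvx : 0 ≤ v.ord x :=
    (P.ordGE_redF φ hφ (hhM P.C) hvj).le_ord (ne_zero_of_transcendental hx)
  have hpos := ord_sub_placeValue_pos hx hvx
  haveI : Fintype (SL(2, ℤ) ⧸ pmGamma (M0 * N')) := Subgroup.fintypeQuotientOfFiniteIndex
  set G0 := (pmGamma M0).map (QuotientGroup.mk' (pmGamma (M0 * N'))) with hG0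
  haveI : Fintype G0 := Fintype.ofFinite _
  refine ⟨_, ord_eq_one_of_autos hx hpos (fun g : G0 => P.actQ φ hφ g) ?_
    (by rw [hxdef, P.finrank_xx φ hφ, Nat.card_eq_fintype_card]) ?_⟩
  · rintro ⟨_, g, hg, rfl⟩
    exact P.act_xx φ hφ hg
  · rintro ⟨_, a, ha, rfl⟩ ⟨_, b, hb, rfl⟩ hne
    have hab : a⁻¹ * b ∉ pmGamma (M0 * N') := fun h =>
      hne (Subtype.ext (QuotientGroup.eq.2 h))
    obtain ⟨p, hp, hmov⟩ := exists_moved P.hn hab
    have hmov' : ¬ PMEq (M0 * N') (vmul p a⁻¹) (vmul p b⁻¹) := fun h => hmov (by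
      have h' := h.vmul b
      rwa [← vmul_mul, ← vmul_mul, inv_mul_cancel, vmul_one] at h')
    obtain ⟨w, hw⟩ := exists_inv_sub P.hM P.ξ P.hξ P.hv (inv_mem ha) (inv_mem hb) ⟨p, hp⟩ hmov'
    set f := fvvM P.hM P.ξ P.hξ P.hv ⟨p, hp⟩
    have ea : P.actQ φ hφ (QuotientGroup.mk' _ a) (P.redF φ hφ f) =
        P.redF φ hφ (transl a⁻¹ f) := P.act_redF φ hφ a f
    have eb : P.actQ φ hφ (QuotientGroup.mk' _ b) (P.redF φ hφ f) =
        P.redF φ hφ (transl b⁻¹ f) := P.act_redF φ hφ b f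
    refine ⟨P.redF φ hφ f, ?_, ?_, ?_, ?_⟩
    · rw [show P.actQ φ hφ _ (P.redF φ hφ f) = _ from ea]; exact P.ordGE_redF φ hφ _ hvj
    · rw [show P.actQ φ hφ _ (P.redF φ hφ f) = _ from eb]; exact P.ordGE_redF φ hφ _ hvj
    · show P.actQ φ hφ (QuotientGroup.mk' _ a) _ ≠ P.actQ φ hφ (QuotientGroup.mk' _ b) _
      rw [ea, eb]
      intro h
      have h1 := congrArg (P.redF φ hφ) hw
      rw [map_mul, map_sub, h, sub_self, zero_mul, map_one] at h1
      exact zero_ne_one h1
    · show v.ord (P.actQ φ hφ (QuotientGroup.mk' _ a) _ -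
        P.actQ φ hφ (QuotientGroup.mk' _ b) _) = 0
      rw [ea, eb, ← map_sub]
      have h1 := congrArg (P.redF φ hφ) hw
      rw [map_mul, map_one] at h1
      have hA : P.redF φ hφ (transl a⁻¹ f - transl b⁻¹ f) ≠ 0 := left_ne_zero_of_mul_eq_one h1
      have hB : P.redF φ hφ w ≠ 0 := right_ne_zero_of_mul_eq_one h1
      have h2 := congrArg v.ord h1
      rw [v.ord_mul hA hB, v.ord_one] at h2
      have h3 := (P.ordGE_redF φ hφ (transl a⁻¹ f - transl b⁻¹ f) hvj).le_ord hA
      have h4 := (P.ordGE_redF φ hφ w hvj).le_ord hB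
      omega

theorem tShift_pow_inj {n : ℕ} (q : SL(2, ℤ) ⧸ pmGamma n) {a b : ℕ} (ha : a < n) (hb : b < n)
    (h : (tShift n ^ a) q = (tShift n ^ b) q) : a = b := by
  have key : ∀ {a b : ℕ}, a ≤ b → b < n → (tShift n ^ a) q = (tShift n ^ b) q → a = b :=
    fun {a b} hab hbn e => by
      have e1 : (tShift n ^ (b - a)) ((tShift n ^ a) q) = (tShift n ^ a) q := by
        rw [← Equiv.Perm.mul_apply, ← pow_add, Nat.sub_add_cancel hab, e]
      have e2 := Nat.eq_zero_of_dvd_of_lt (Int.natCast_dvd_natCast.1 (tShift_pow_fix e1))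
        (show b - a < n by omega)
      omega
  rcases le_total a b with hab | hab
  · exact key hab hb h
  · exact (key hab ha h.symm).symm

include hφ in
/-- Every pole of `j` has order `n`. -/
theorem frame_ord_jj_pole {v : Place K (P.fld φ)} (hv : v.ord (P.jj φ hφ) < 0) :
    v.ord (P.jj φ hφ) = -((M0 * N' : ℕ) : ℤ) := by
  classical
  set n := M0 * N' with hn
  set j := P.jj φ hφ with hjdef
  have hj : Transcendental K j := P.jj_transcendental φ hφ
  haveI : Fintype (SL(2, ℤ) ⧸ pmGamma (M0 * N')) := Subgroup.fintypeQuotientOfFiniteIndex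
  let σe : SL(2, ℤ) ⧸ pmGamma (M0 * N') → P.fld φ →+* LaurentSeries K := fun q =>
    ((P.fld φ).val : P.fld φ →+* LaurentSeries K).comp
      (P.actQ φ hφ q : P.fld φ →+* P.fld φ)
  have hn0 := P.natCast_ne_zero φ
  have hT : ((jAt (1 : Kˣ) (M0 * N'))⁻¹).order = ((M0 * N' : ℕ) : ℤ) := order_inv_jAt _
  have hσT : ∀ q, σe q j⁻¹ = (jAt (1 : Kˣ) (M0 * N'))⁻¹ := fun q => by
    obtain ⟨g, rfl⟩ := QuotientGroup.mk_surjective q
    show ((P.actQ φ hφ g j⁻¹ : P.fld φ) : LaurentSeries K) = _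
    rw [map_inv₀, P.actQ_mk, hjdef, P.act_jj, IntermediateField.coe_inv, P.coe_jj]
  have hI : Fintype.card (SL(2, ℤ) ⧸ pmGamma (M0 * N')) = Module.finrank K⟮j⁻¹⟯ (P.fld φ) := by
    rw [finrank_adjoin_inv, hjdef, P.finrank_jj φ hφ, Nat.card_eq_fintype_card]
  obtain ⟨pl, hpos, hcover, hsame, hc⟩ := exists_place_map_of_tame
    (κ := RingHom.id K) σe
    (fun q a => by
      show ((P.actQ φ hφ q (algebraMap K (P.fld φ) a) : P.fld φ) : LaurentSeries K) = _
      rw [AlgEquiv.commutes]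
      exact algebraMap_laurentSeries_eq_single K a)
    (fun q q' h => P.actQ_injective φ hφ (AlgEquiv.ext fun z =>
      Subtype.ext (DFunLike.congr_fun h z)))
    (t := j⁻¹) hI (T := (jAt (1 : Kˣ) (M0 * N'))⁻¹) hσT
    (by rw [hT]; exact_mod_cast Nat.pos_of_ne_zero (NeZero.ne (M0 * N')))
    (by rw [hT, Int.cast_natCast]; exact hn0)
    (tShift (M0 * N'))
    (fun q f => by
      show ((P.actQ φ hφ (tShift _ q) f : P.fld φ) : LaurentSeries K).order = _
      rw [P.act_tShift, order_twist]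
      rfl)
    (fun q d hd f => by rw [hT]; exact dvd_mul_of_dvd_left (tShift_pow_fix hd) _)
  have ht : Transcendental K j⁻¹ := transcendental_inv hj
  have hsum := sum_ord_zerosOf ht
  rw [← hI, ← Finset.card_univ, Finset.card_eq_sum_card_fiberwise (f := pl) (s := Finset.univ)
    (t := zerosOf K j⁻¹) fun q _ => mem_zerosOf.2 (hpos q), Nat.cast_sum] at hsum
  have hle : ∀ u ∈ zerosOf K j⁻¹, u.ord j⁻¹ ≤ ((n : ℕ) : ℤ) := fun u hu => by
    obtain ⟨q, rfl⟩ := hcover u (mem_zerosOf.1 hu)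
    obtain ⟨c, hc0, hcq⟩ := hc q
    have h1 := hcq j⁻¹
    rw [hσT, hT] at h1
    rw [hn, h1]
    exact le_mul_of_one_le_left (hpos q).le hc0
  have hfib : ∀ u ∈ zerosOf K j⁻¹,
      ((n : ℕ) : ℤ) ≤ ((Finset.univ.filter fun q => pl q = u).card : ℕ) := fun u hu => by
    obtain ⟨q, rfl⟩ := hcover u (mem_zerosOf.1 hu)
    have h1 := Finset.card_le_card_of_injOn (s := Finset.range n)
      (t := Finset.univ.filter fun q' => pl q' = pl q) (fun k => (tShift n ^ k) q)
      (fun k _ => Finset.mem_filter.2 ⟨Finset.mem_univ _,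
        (hsame _ _).2 (Equiv.Perm.sameCycle_pow_left.2 (Equiv.Perm.SameCycle.refl _ _))⟩)
      (fun a ha b hb hab => tShift_pow_inj q (Finset.mem_range.1 ha) (Finset.mem_range.1 hb) hab)
    rw [Finset.card_range] at h1
    exact_mod_cast h1
  have heq := (Finset.sum_eq_sum_iff_of_le hle).1 (le_antisymm (Finset.sum_le_sum hle)
    ((Finset.sum_le_sum hfib).trans_eq hsum.symm))
  have hvz : v ∈ zerosOf K j⁻¹ := mem_zerosOf.2 (by rw [v.ord_inv]; omega)
  have := heq v hvz
  rw [v.ord_inv] at this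
  omega

end FLTAgent.Lowering.P3.Levels
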