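import Fermat.Agent.Lowering.P3.Kummer.Interface
import Fermat.Agent.Lowering.P3.Kummer.UnramifiedFrame
import Fermat.Agent.Lowering.P3.Levels.Choose
import Fermat.Agent.Kronecker.Cover
import Fermat.Agent.Specialization.Cover

/-!
# `±Γ(n) ∩ ±Γ₁(l)` is unramified over `±Γ(n) ∩ Γ₀(l)`

Where `j` is finite the coordinate is a local parameter at the top level, and over a pole of `j`
the index of ramification divides `l` and is less than `l`.
-/

set_option autoImplicit false
set_option linter.unusedSectionVars false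
set_option linter.style.haveILetI false
set_option maxHeartbeats 1600000
set_option synthInstance.maxHeartbeats 400000

noncomputable section

open UpperHalfPlane hiding I I_re I_im
open Filter Topology Complex Function FLTAgent.ModEq FLTAgent.GoodModel ModularCurve
open AlgebraicCurve FLTAgent.Curves
open scoped MatrixGroups IntermediateField

namespace FLTAgent.Lowering.P3.Levels

open FLTAgent.DeligneSerre

local notation "LL" => AlgebraicClosure ℚ

/-- The lower right entry modulo `l` on `±Γ(n) ∩ Γ₀(l)`. -/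
def lowRight (n l : ℕ) : grp0 n l →* ZMod l where
  toFun g := (((g : SL(2, ℤ)) 1 1 : ℤ) : ZMod l)
  map_one' := by simp
  map_mul' g h := by
    have g0 : (((g : SL(2, ℤ)) 1 0 : ℤ) : ZMod l) = 0 := CongruenceSubgroup.Gamma0_mem.mp g.2.2
    simp [Matrix.SpecialLinearGroup.coe_mul, Matrix.mul_apply, Fin.sum_univ_two, g0]

theorem index_grp1_dvd {n l : ℕ} [Fact l.Prime] :
    ∃ r : ℕ, r ≤ l - 1 ∧ (grp1 n l).index = r * (grp0 n l).index := by
  refine ⟨_, ?_, (Subgroup.relIndex_mul_index (grp1_le_grp0 n l)).symm⟩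
  set χ : grp0 n l →* (ZMod l)ˣ := (lowRight n l).toHomUnits with hχ
  have hker : χ.ker ≤ (grp1 n l).subgroupOf (grp0 n l) := fun g hg => by
    have h1 : (((g : SL(2, ℤ)) 1 1 : ℤ) : ZMod l) = 1 :=
      congrArg Units.val (MonoidHom.mem_ker.1 hg)
    exact ⟨g.2.1, mem_pmGamma1_iff.mpr ⟨CongruenceSubgroup.Gamma0_mem.mp g.2.2, Or.inl h1⟩⟩
  have hcard : χ.ker.index ≤ l - 1 := by
    rw [Subgroup.index_ker, ← ZMod.card_units l, ← Nat.card_eq_fintype_card]
    exact Nat.card_le_card_of_injective Subtype.val Subtype.val_injective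
  haveI : χ.ker.FiniteIndex := ⟨by
    rw [Subgroup.index_ker]
    exact Nat.card_pos.ne'⟩
  exact le_trans (Nat.le_of_dvd (Nat.pos_of_ne_zero Subgroup.FiniteIndex.index_ne_zero)
    (Subgroup.index_dvd_of_le hker)) hcard

variable {κ : LL →+* ℂ} {M0 N' l : ℕ} [NeZero M0] [NeZero N'] [NeZero l] [NeZero (M0 * N')]
  [NeZero (N' * l)] [NeZero (M0 * (N' * l))] (P' : Frame κ.range M0 (N' * l))
  (P₀ : Frame κ.range M0 N')

local notation "φ₀" => toLL κ
local notation "hφ₀" => toLL_surjective κ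

theorem toTop_jj : toTop P₀ P' (P₀.jj φ₀ hφ₀) = P'.jj φ₀ hφ₀ := by
  refine Subtype.ext ?_
  rw [coe_toTop, P₀.coe_jj, P'.coe_jj, jAt_one_left, jAt_one_left, jqNModC, jqNModC,
    qExpand_qExpand]
  congr 1
  ring_nf

/-- The degree over the field of `j`. -/
theorem finrank_adjoin_fldQ {H : Subgroup SL(2, ℤ)}
    (hH : H = grp0 (M0 * N') l ∨ H = grp1 (M0 * N') l) (jH : fldQ P' H)
    (hj : up H jH = P'.jj φ₀ hφ₀) : Module.finrank LL⟮jH⟯ (fldQ P' H) = H.index := by
  set e := upEquiv (P' := P') hH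
  set jE : P'.fixedFld φ₀ hφ₀ H := ⟨P'.jj φ₀ hφ₀, P'.jj_mem_fixedFld φ₀ hφ₀ H⟩
  have hj' : e jH = jE := Subtype.ext ((coe_upEquiv hH jH).trans hj)
  have hmap : LL⟮jH⟯.map e.toAlgHom = LL⟮jE⟯ := by
    rw [IntermediateField.adjoin_map, Set.image_singleton]
    exact congrArg _ (congrArg _ hj')
  let e' : LL⟮jH⟯ ≃ₐ[LL] LL⟮jE⟯ :=
    (LL⟮jH⟯.equivMap e.toAlgHom).trans (IntermediateField.equivOfEq hmap)
  exact (Algebra.finrank_eq_of_equiv_equiv e'.toRingEquiv e.toRingEquiv
    (RingHom.ext fun _ => rfl)).trans ((P'.finrank_fixedFld φ₀ hφ₀ (pmGamma_top_le hH)).trans rfl)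

theorem up_incl01 (f : fldQ P' (grp0 (M0 * N') l)) :
    up (grp1 (M0 * N') l) (incl01 P' f) = up (grp0 (M0 * N') l) f :=
  Subtype.ext (by rw [coe_up, coe_up, coe_incl01])

/-- **The extension is unramified.** -/
theorem targetUnramified : TargetUnramified := by
  intro κ M0 N' l _ _ _ _ _ _ _ P' hnl hn4 hl5 _ _ x U m hxU v
  obtain ⟨P₀⟩ := exists_topFrame κ (M0 := M0) (K := N') P'.hM (by omega)
  haveI := P'.isFunctionField (toLL κ) (toLL_surjective κ)
  haveI := P₀.isFunctionField (toLL κ) (toLL_surjective κ)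
  have h0pm : grp0 (M0 * N') l ≤ pmGamma (M0 * N') := inf_le_left
  set j0 : fldQ P' (grp0 (M0 * N') l) := incl P₀ P' h0pm (P₀.jj (toLL κ) (toLL_surjective κ)) with hj0
  have hupj0 : up (grp0 (M0 * N') l) j0 = P'.jj (toLL κ) (toLL_surjective κ) :=
    (up_incl P₀ P' h0pm _).trans (toTop_jj P' P₀)
  -- the three extensions
  letI : Algebra (fldQ P' (grp0 (M0 * N') l)) (fldQ P' (grp1 (M0 * N') l)) := (incl01 P').toRingHom.toAlgebra
  letI : Algebra (fldQ P' (grp1 (M0 * N') l)) (P'.fld (toLL κ)) := (up (grp1 (M0 * N') l)).toRingHom.toAlgebra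
  haveI : IsScalarTower LL (fldQ P' (grp0 (M0 * N') l)) (fldQ P' (grp1 (M0 * N') l)) :=
    IsScalarTower.of_algebraMap_eq fun a => ((incl01 P').commutes a).symm
  haveI : IsScalarTower LL (fldQ P' (grp1 (M0 * N') l)) (P'.fld (toLL κ)) :=
    IsScalarTower.of_algebraMap_eq fun a => ((up (P' := P') (grp1 (M0 * N') l)).commutes a).symm
  letI : Algebra (P₀.fld (toLL κ)) (fldQ P' (grp0 (M0 * N') l)) := (incl P₀ P' h0pm).toRingHom.toAlgebra
  haveI : IsScalarTower LL (P₀.fld (toLL κ)) (fldQ P' (grp0 (M0 * N') l)) :=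
    IsScalarTower.of_algebraMap_eq fun a => ((incl P₀ P' h0pm).commutes a).symm
  haveI : Module.Finite (fldQ P' (grp0 (M0 * N') l)) (fldQ P' (grp1 (M0 * N') l)) := Kronecker.moduleFinite_of_functionField LL
  haveI : Module.Finite (fldQ P' (grp1 (M0 * N') l)) (P'.fld (toLL κ)) :=
    Kronecker.moduleFinite_of_functionField LL
  haveI : Module.Finite (P₀.fld (toLL κ)) (fldQ P' (grp0 (M0 * N') l)) :=
    Kronecker.moduleFinite_of_functionField LL
  obtain ⟨w', hw'⟩ := Specialization.exists_restrict_eq (F' := fldQ P' (grp1 (M0 * N') l)) v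
  obtain ⟨w, hw⟩ := Specialization.exists_restrict_eq (F' := P'.fld (toLL κ)) w'
  set e1 := w.ramificationIndex (fldQ P' (grp1 (M0 * N') l))
  set e' := w'.ramificationIndex (fldQ P' (grp0 (M0 * N') l)) with he'def
  have hchain : ∀ f : fldQ P' (grp0 (M0 * N') l), w.ord (up (grp0 (M0 * N') l) f) = (e1 : ℤ) * ((e' : ℤ) * v.ord f) := fun f => by
    rw [← hw', ← w'.ord_restrict, ← hw, ← w.ord_restrict]
    exact congrArg w.ord (up_incl01 P' f).symm
  suffices he : e' = 1 by
    have h1 := congrArg w'.ord hxU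
    rw [Curves.ord_pow, show incl01 P' U = algebraMap (fldQ P' (grp0 (M0 * N') l)) (fldQ P' (grp1 (M0 * N') l)) U from rfl,
      w'.ord_restrict, hw', ← he'def, he, Nat.cast_one, one_mul] at h1
    exact ⟨_, h1.symm⟩
  by_cases hfin : 0 ≤ w.ord (P'.jj (toLL κ) (toLL_surjective κ))
  · obtain ⟨a, ha⟩ := frame_ord_sub_eq_one P' (toLL κ) (toLL_surjective κ) hfin
    have hfix : P'.xx (toLL κ) (toLL_surjective κ) - algebraMap LL (P'.fld (toLL κ)) a ∈
        P'.fixedFld (toLL κ) (toLL_surjective κ) (grp0 (M0 * N') l) := by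
      refine sub_mem ((P'.mem_fixedFld _ _).2 fun g hg => ?_) (IntermediateField.algebraMap_mem _ _)
      exact P'.act_xx _ _ (pmGamma_mono (dvd_mul_right M0 N') (h0pm hg))
    obtain ⟨y, hy⟩ := exists_up_of_fixed P' (T_mem (Or.inl rfl)) hfix
    rw [← hy, hchain] at ha
    have h2 : (e' : ℤ) ∣ 1 := ⟨(e1 : ℤ) * v.ord y, by rw [← ha]; ring⟩
    exact Nat.dvd_one.1 (by exact_mod_cast h2)
  · rw [not_le] at hfin
    have htop := frame_ord_jj_pole P' (toLL κ) (toLL_surjective κ) hfin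
    have h1 := hchain j0
    rw [hupj0, htop] at h1
    have hv0 : v.ord j0 = (v.ramificationIndex (P₀.fld (toLL κ)) : ℤ) *
        (v.restrict (P₀.fld (toLL κ))).ord (P₀.jj (toLL κ) (toLL_surjective κ)) :=
      v.ord_restrict _
    have hneg : (v.restrict (P₀.fld (toLL κ))).ord (P₀.jj (toLL κ) (toLL_surjective κ)) < 0 := by
      by_contra hge
      rw [not_lt] at hge
      have : (0 : ℤ) ≤ v.ord j0 := hv0 ▸ mul_nonneg (Int.natCast_nonneg _) hge
      have h3 : (0 : ℤ) ≤ w.ord (up (grp0 (M0 * N') l) j0) := by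
        rw [hchain]; positivity
      rw [hupj0] at h3
      omega
    rw [hv0, frame_ord_jj_pole P₀ (toLL κ) (toLL_surjective κ) hneg] at h1
    have hdvd : e' ∣ l := by
      refine ⟨e1 * v.ramificationIndex (P₀.fld (toLL κ)), ?_⟩
      have hn0 : ((M0 * N' : ℕ) : ℤ) ≠ 0 := Nat.cast_ne_zero.2 (NeZero.ne _)
      have : ((l : ℕ) : ℤ) * ((M0 * N' : ℕ) : ℤ) =
          ((e' * (e1 * v.ramificationIndex (P₀.fld (toLL κ))) : ℕ) : ℤ) * ((M0 * N' : ℕ) : ℤ) := by
        push_cast at h1 ⊢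
        linear_combination -h1
      exact_mod_cast mul_right_cancel₀ hn0 this
    have hle : e' ≤ Module.finrank (fldQ P' (grp0 (M0 * N') l)) (fldQ P' (grp1 (M0 * N') l)) := by
      have h2 := Kronecker.sum_ramificationIndex_fiber (F' := fldQ P' (grp1 (M0 * N') l)) v
      have h3 := Finset.single_le_sum (f := fun u : Place LL (fldQ P' (grp1 (M0 * N') l)) =>
          (u.ramificationIndex (fldQ P' (grp0 (M0 * N') l)) : ℤ)) (fun u _ => Int.natCast_nonneg _)
        (Place.mem_fiber.2 hw')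
      exact_mod_cast h3.trans_eq h2
    have hdeg : Module.finrank (fldQ P' (grp0 (M0 * N') l)) (fldQ P' (grp1 (M0 * N') l)) ≤ l - 1 := by
      obtain ⟨r, hr, hidx⟩ := index_grp1_dvd (n := M0 * N') (l := l)
      have h2 := Kronecker.finrank_adjoin_algebraMap (K := LL) (F' := fldQ P' (grp1 (M0 * N') l)) j0
      rw [finrank_adjoin_fldQ P' (Or.inr rfl) _ (by
          rw [show algebraMap (fldQ P' (grp0 (M0 * N') l)) (fldQ P' (grp1 (M0 * N') l)) j0 = incl01 P' j0 from rfl, up_incl01,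
            hupj0]), finrank_adjoin_fldQ P' (Or.inl rfl) j0 hupj0, hidx, mul_comm] at h2
      haveI : (grp0 (M0 * N') l).FiniteIndex := Subgroup.finiteIndex_of_le (pmGamma_top_le (Or.inl rfl))
      rw [← Nat.eq_of_mul_eq_mul_left (Nat.pos_of_ne_zero Subgroup.FiniteIndex.index_ne_zero) h2]
      exact hr
    rcases (Fact.out : l.Prime).eq_one_or_self_of_dvd _ hdvd with h | h
    · exact h
    · omega

end FLTAgent.Lowering.P3.Levels
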