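import Fermat.Agent.Lowering.P3.Kummer.Cover
import Fermat.Agent.Lowering.P3.Kummer.Unramified
import Fermat.Agent.Lowering.P3.Kummer.SheetPsi
import Fermat.Agent.Lowering.P3.SimpleZeros.Target
import Fermat.Agent.Lowering.P3.Cover.Target
import Fermat.Agent.Lowering.P3.TwoSheet.Target

/-!
# Inertia and the twist on functions of `±Γ(n) ∩ ±Γ₁(l)` with divisor divisible by `r`
-/

set_option autoImplicit false
set_option linter.unusedSectionVars false
set_option linter.style.haveILetI false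
set_option maxHeartbeats 1600000
set_option synthInstance.maxHeartbeats 400000

noncomputable section

open AlgebraicCurve FLTAgent.Curves IsLocalRing
open scoped MatrixGroups IntermediateField

namespace FLTAgent.Lowering.P3.Levels

open FLTAgent.DeligneSerre FLTAgent.BadRed ModularCurve FLTAgent.ModEq FLTAgent.GoodModel
open FLTAgent.Specialization (laurentReduction)

local notation "LL" => AlgebraicClosure ℚ
local notation "GG" => (AlgebraicClosure ℚ ≃ₐ[ℚ] AlgebraicClosure ℚ)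

/-- The quotient of the image by a semilinear map and the element, after scaling. -/
theorem res_quotient {L k F Ω : Type*} [Field L] [Field k] [Field F] [Field Ω] [Algebra L F]
    [Algebra k Ω] {A : ValuationSubring L} {π : A →+* k}
    (R : Specialization.Reduction π F Ω) (Φ : F →+* F) (s : L →+* L)
    (hΦ : ∀ a, Φ (algebraMap L F a) = algebraMap L F (s a)) {c : L} {f : F} {g g' : Ω} (hg : g ≠ 0)
    (h : R.Res (c • f) g) (h' : R.Res (Φ (c • f)) g') :
    R.Res ((s c / c) • (Φ f / f)) (g' / g) := by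
  have hc := h'.div h hg
  simp only [Algebra.smul_def, map_mul, hΦ, ← div_mul_div_comm] at hc
  rw [Algebra.smul_def, map_div₀]
  exact hc

/-- Divisibility of all orders passes to the quotient by a semilinear automorphism. -/
theorem dvd_ord_quotient {K F : Type*} [Field K] [Field F] [Algebra K F] (g : SemilinearAut K F)
    {r : ℤ} {f : F} (hf : f ≠ 0) (h : ∀ v : Place K F, r ∣ v.ord f) :
    (g • f) / f ≠ 0 ∧ ∀ v : Place K F, r ∣ v.ord ((g • f) / f) := by
  have hgf : g • f ≠ 0 := fun h0 => hf (by simpa using congrArg (g⁻¹ • ·) h0)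
  refine ⟨div_ne_zero hgf hf, fun v => ?_⟩
  rw [div_eq_mul_inv, v.ord_mul hgf (inv_ne_zero hf), v.ord_inv]
  refine dvd_add ?_ ((h v).neg_right)
  have e := SemilinearAut.ord_smul g (g⁻¹ • v) f
  rw [smul_inv_smul] at e
  rw [e]
  exact h _

variable {κ : LL →+* ℂ} {M0 N' l : ℕ} [NeZero M0] [NeZero N'] [NeZero l] [NeZero (M0 * N')]
  [NeZero (N' * l)] [NeZero (M0 * (N' * l))] {V : ValuationSubring LL} [Fact l.Prime]
  [IsAlgClosed (ResidueField V)] [CharP (ResidueField V) l] (d : Data κ M0 N' l V)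
  [IsFunctionField LL d.FC] [IsFunctionField LL d.F₀] [IsFunctionField LL d.F₁]
  [IsFunctionField (ResidueField V) d.Fb]

theorem galQ_algebraMap {H : Subgroup SL(2, ℤ)}
    (hH : H = grp0 (M0 * N') l ∨ H = grp1 (M0 * N') l) (σ : GG) (a : LL) :
    galQ (P' := d.top) hH σ (algebraMap LL (fldQ d.top H) a) =
      algebraMap LL (fldQ d.top H) (σ a) :=
  Subtype.ext (coeffMap_algebraMap (σ : LL →+* LL) a)

/-- A diamond after a Galois element. -/
def twistAut (σ : GG) {t : SL(2, ℤ)} (ht : t ∈ grp0 (M0 * N') l) : SemilinearAut LL d.F₁ :=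
  ⟨((galQ (P' := d.top) (Or.inr rfl) σ).trans (dQ (Or.inr rfl) ht).toRingEquiv, σ.toRingEquiv),
    fun a => (congrArg (dQ (Or.inr rfl) ht) (galQ_algebraMap d (Or.inr rfl) σ a)).trans
      ((dQ (Or.inr rfl) ht).commutes (σ a))⟩

theorem twistAut_smul (σ : GG) {t : SL(2, ℤ)} (ht : t ∈ grp0 (M0 * N') l) (x : d.F₁) :
    twistAut d σ ht • x = dQ (Or.inr rfl) ht (galQ (Or.inr rfl) σ x) := rfl

theorem dQ_incl01 {t : SL(2, ℤ)} (ht : t ∈ grp0 (M0 * N') l) (a : d.F₀) :
    dQ (H := grp1 (M0 * N') l) (Or.inr rfl) ht (incl01 d.top a) = incl01 d.top a := by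
  have e : up (grp1 (M0 * N') l) (incl01 d.top a) = up (grp0 (M0 * N') l) a :=
    Subtype.ext (by rw [coe_up, coe_up, coe_incl01])
  refine (up (grp1 (M0 * N') l)).toRingHom.injective ?_
  show up _ _ = up _ _
  rw [up_dQ, e, psi_up_of_mem ht]

/-- The three quotients of a function with divisor divisible by `r` reach a power. -/
theorem exists_twisted_rel (h5 : 5 ≤ l) (hn4 : 4 ≤ M0 * N') {σ : GG}
    (hσ : σ ∈ V.inertiaSubgroupIn ℚ) {c : ℤ} (hc : CycPow d.top σ c) {t : SL(2, ℤ)}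
    (ht : t ∈ grp0 (M0 * N') l)
    (hrel : ConjRel (M0 * (N' * l)) c ModularGroup.S (t * ModularGroup.S)) {r : ℕ}
    (hr : (r : ResidueField V) ≠ 0) {f : d.F₁} (hf : f ≠ 0)
    (hord : ∀ v : Place LL d.F₁, (r : ℤ) ∣ v.ord f) :
    let e : d.F₁ ≃+* d.F₁ := galQ (P' := d.top) (Or.inr rfl) σ
    let f₁ : d.F₁ := e f / f
    let f₂ : d.F₁ := dQ (Or.inr rfl) ht (e f₁) / f₁
    ∃ (a : LL) (h : d.F₁), a ≠ 0 ∧ e f₂ / f₂ = algebraMap LL d.F₁ a * h ^ r := by
  intro e f₁ f₂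
  classical
  letI := algebraAlong (incl01 d.top)
  haveI := isScalarTower_along (incl01 d.top)
  obtain ⟨N⟩ := d.sheet_good.nonempty_nodes
  obtain ⟨C, hQ₁, hQ₂⟩ :=
    exists_cover d targetSimpleZeros targetUnramified targetSheetPsi h5 hn4 N
  obtain ⟨hFF, T, G, hTX, hT₁, hT₂, hfix, hdeck⟩ := targetCover d.sheet d.sheet_good N d.F₁ C
  let k₁ : d.F₁ ≃ₐ[d.F₀] d.F₁ :=
    AlgEquiv.ofRingEquiv (f := (dQ (H := grp1 (M0 * N') l) (Or.inr rfl) ht).toRingEquiv)
      fun a => dQ_incl01 d ht a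
  obtain ⟨τ₁, -, hτ₁, hd₁, -⟩ := hdeck k₁
  obtain ⟨σ₁, τ₂, hτ₂, -, hd₂⟩ := hdeck k₁.symm
  have hσ₁ : ∀ x g, T.R₁.Res x g → T.R₁.Res (e x) g := fun x g h => by
    rw [hT₁, hQ₁] at h ⊢
    exact res_inertia hσ rfl h
  have hσt : ∀ x g, T.R₂.Res x g → T.R₂.Res (dQ (Or.inr rfl) ht (e x)) g := fun x g h => by
    rw [hT₂, hQ₂, comapReduction_res] at h ⊢
    refine res_inertia hσ ?_ h
    rw [← galQ_wInv (Or.inr rfl) d.cop hc ht hrel, coe_galQ]
  let P : T.Sym :=
    { σ := galQAut (P' := d.top) (Or.inr rfl) σ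
      σb₁ := RingHom.id _
      σb₂ := τ₂
      σX := by
        rw [hTX, galQAut_smul]
        refine Subtype.ext ?_
        show coeffMap (σ : LL →+* LL) (d.sheet.X : LaurentSeries LL) =
          (d.sheet.X : LaurentSeries LL)
        rw [d.coe_X, jAt_one_left, coeffMap_jqNModC]
      res₁ := fun x g h => hσ₁ x g h
      res₂ := fun x g h => by
        have h2 := hd₂ _ _ (hσt x g h)
        rwa [show k₁.symm (dQ (Or.inr rfl) ht (e x)) = e x from k₁.symm_apply_apply (e x)] at h2 }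
  obtain ⟨hf₁, hord₁⟩ := dvd_ord_quotient (galQAut (P' := d.top) (Or.inr rfl) σ) hf hord
  obtain ⟨hf₂, hord₂⟩ := dvd_ord_quotient (twistAut d σ ht) hf₁ hord₁
  -- residue one of the first quotient on the first sheet
  obtain ⟨c₀, g₀, hg₀, hr₀⟩ := T.scaled₁ f hf
  have h₁ := res_quotient T.R₁ e.toRingHom (σ : LL →+* LL) (galQ_algebraMap d (Or.inr rfl) σ) hg₀
    hr₀ (hσ₁ _ _ hr₀)
  rw [div_self hg₀] at h₁
  -- residues one of the second quotient on both sheets
  let Φ : d.F₁ →+* d.F₁ := (dQ (H := grp1 (M0 * N') l) (Or.inr rfl) ht).toRingEquiv.toRingHom.comp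
    e.toRingHom
  have hΦ : ∀ a, Φ (algebraMap LL d.F₁ a) = algebraMap LL d.F₁ (σ a) := fun a =>
    (twistAut d σ ht).2 a
  have h₂₁ := res_quotient T.R₁ Φ (σ : LL →+* LL) hΦ one_ne_zero h₁
    (by have h := hd₁ _ _ (hσ₁ _ _ h₁); rwa [map_one] at h)
  rw [div_one] at h₂₁
  obtain ⟨c', g', hg', hr'⟩ := T.scaled₂ f₁ hf₁
  have h₂₂ := res_quotient T.R₂ Φ (σ : LL →+* LL) hΦ hg' hr' (hσt _ _ hr')
  rw [div_self hg'] at h₂₂
  obtain ⟨a, h, ha, hrel'⟩ := targetTwoSheet T G P (fun _ _ _ => rfl)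
    (fun i x hx => (hfix τ₂ (fun y hy => (hτ₂ y hy).2) i x).2 hx) r hr f₂ hf₂ hord₂ _ _ 1 1
    one_ne_zero one_ne_zero (by rw [one_pow]; exact h₂₁) (by rw [one_pow]; exact h₂₂)
  refine ⟨a, h, ha, ?_⟩
  change e f₂ = a • (f₂ * h ^ r) at hrel'
  rw [hrel', Algebra.smul_def, mul_div_assoc, mul_div_cancel_left₀ _ (show f₂ ≠ 0 from hf₂)]

end FLTAgent.Lowering.P3.Levels
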