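import Fermat.Agent.Kronecker.Congruence
import Fermat.Agent.Specialization.Model
import Mathlib.RingTheory.Polynomial.Cyclotomic.Roots
import Mathlib.GroupTheory.SpecificGroups.Cyclic
import Mathlib.RingTheory.IntegralDomain

/-!
# The lift of the squares of the residues prime to `l` to roots of unity
-/

set_option autoImplicit false
set_option linter.unusedSectionVars false

noncomputable section

open IsLocalRing

namespace FLTAgent.Lowering.P3.Levels

local notation "LL" => AlgebraicClosure ℚ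

variable {V : ValuationSubring LL} {l : ℕ} [Fact l.Prime] [CharP (ResidueField V) l]

/-- A root of unity as a unit of the valuation ring. -/
theorem exists_unit_of_pow_eq_one (V : ValuationSubring LL) {x : LL} {n : ℕ} (hn : n ≠ 0)
    (hx : x ^ n = 1) : ∃ u : Vˣ, ((u : V) : LL) = x := by
  have h : (⟨x, Kronecker.mem_of_pow_eq_one V hn hx⟩ : V) ^ n = 1 := Subtype.ext hx
  exact ⟨Units.ofPowEqOne _ n h hn, rfl⟩

variable (V l) in
/-- The multiplicative lift. -/
theorem exists_teich : ∃ ω : (ZMod l)ˣ →* Vˣ,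
    ∀ a : (ZMod l)ˣ, residue V (ω a : V) = ZMod.cast (a : ZMod l) := by
  have hl : l.Prime := Fact.out
  have h1 : 0 < l - 1 := by have := hl.two_le; omega
  haveI : NeZero (l - 1) := ⟨h1.ne'⟩
  obtain ⟨z, hz⟩ := HasEnoughRootsOfUnity.exists_primitiveRoot LL (l - 1)
  obtain ⟨u, hu⟩ := exists_unit_of_pow_eq_one V h1.ne' hz.pow_eq_one
  have huV : IsPrimitiveRoot (u : V) (l - 1) :=
    IsPrimitiveRoot.of_map_of_injective (f := V.subtype) (by rw [show V.subtype (u : V) = z from hu]; exact hz)
      Subtype.val_injective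
  haveI : NeZero (((l - 1 : ℕ)) : ResidueField V) := ⟨fun h => by
    rw [CharP.cast_eq_zero_iff (ResidueField V) l] at h
    have := Nat.le_of_dvd h1 h
    omega⟩
  have hk : IsPrimitiveRoot (residue V (u : V)) (l - 1) := by
    refine Polynomial.isRoot_cyclotomic_iff.1 ?_
    rw [← Polynomial.map_cyclotomic (l - 1) (residue V)]
    exact (huV.isRoot_cyclotomic h1).map
  obtain ⟨g, hg⟩ := IsCyclic.exists_generator (α := (ZMod l)ˣ)
  have hgk : (ZMod.cast (g : ZMod l) : ResidueField V) ^ (l - 1) = 1 := by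
    rw [← ZMod.castHom_apply (h := dvd_refl l), ← map_pow, ← Units.val_pow_eq_pow_val,
      ← ZMod.card_units l, pow_card_eq_one, Units.val_one, map_one]
  obtain ⟨i, -, hi⟩ := hk.eq_pow_of_pow_eq_one hgk
  have hord : orderOf (u ^ i) ∣ orderOf g := by
    rw [orderOf_eq_card_of_forall_mem_zpowers hg, Nat.card_eq_fintype_card, ZMod.card_units]
    refine orderOf_dvd_of_pow_eq_one (Units.ext ?_)
    rw [← pow_mul, mul_comm, pow_mul, Units.val_pow_eq_pow_val, Units.val_pow_eq_pow_val,
      huV.pow_eq_one, one_pow, Units.val_one]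
  refine ⟨monoidHomOfForallMemZpowers hg hord, fun a => ?_⟩
  have key : (Units.map (residue V).toMonoidHom).comp (monoidHomOfForallMemZpowers hg hord) =
      Units.map (ZMod.castHom (dvd_refl l) (ResidueField V)).toMonoidHom := by
    refine MonoidHom.ext fun x => ?_
    obtain ⟨k, rfl⟩ := Subgroup.mem_zpowers_iff.1 (hg x)
    rw [map_zpow, map_zpow]
    congr 1
    refine Units.ext ?_
    rw [MonoidHom.comp_apply, monoidHomOfForallMemZpowers_apply_gen]
    simpa using hi
  simpa using congrArg Units.val (DFunLike.congr_fun key a)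

variable (l) in
/-- A character of order `(l - 1) / 2` lifting the squares. -/
structure SqChar (V : ValuationSubring LL) [CharP (ResidueField V) l] where
  ψ : (ZMod l)ˣ →* Vˣ
  res : ∀ a, residue V (ψ a : V) = (ZMod.cast (a : ZMod l) : ResidueField V) ^ 2
  neg : ψ (-1) = 1
  pow : ∀ a, ψ a ^ ((l - 1) / 2) = 1

theorem nonempty_sqChar (h2 : l ≠ 2) : Nonempty (SqChar l V) := by
  obtain ⟨ω, hω⟩ := exists_teich V l
  refine ⟨⟨ω ^ 2, fun a => ?_, ?_, fun a => ?_⟩⟩
  · rw [MonoidHom.pow_apply, Units.val_pow_eq_pow_val, map_pow, hω]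
  · rw [MonoidHom.pow_apply, ← map_pow, neg_one_sq, map_one]
  · rw [MonoidHom.pow_apply, ← pow_mul, ← map_pow,
      show 2 * ((l - 1) / 2) = l - 1 by
        obtain ⟨k, hk⟩ := (Fact.out : l.Prime).odd_of_ne_two h2
        omega,
      ← ZMod.card_units l, pow_card_eq_one, map_one]

theorem SqChar.sum_eq_zero (χ : SqChar l V) (h5 : 5 ≤ l) :
    ∑ a : (ZMod l)ˣ, ((χ.ψ a : V) : LL) = 0 := by
  have hcop : (2 : ℕ).Coprime l :=
    (Nat.coprime_primes Nat.prime_two Fact.out).2 (by omega)
  have hne : (V.subtype.toMonoidHom.comp ((Units.coeHom V).comp χ.ψ)) ≠ 1 := fun h => by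
    have h1 : ((χ.ψ (ZMod.unitOfCoprime 2 hcop) : V) : LL) = 1 :=
      DFunLike.congr_fun h (ZMod.unitOfCoprime 2 hcop)
    have h2 := χ.res (ZMod.unitOfCoprime 2 hcop)
    rw [show ((χ.ψ (ZMod.unitOfCoprime 2 hcop) : V)) = 1 from Subtype.ext h1, map_one,
      ZMod.coe_unitOfCoprime, ← ZMod.castHom_apply (h := dvd_refl l), map_natCast] at h2
    have h3 : ((3 : ℕ) : ResidueField V) = 0 := by
      push_cast at h2 ⊢
      linear_combination -h2
    have := Nat.le_of_dvd (by norm_num) ((CharP.cast_eq_zero_iff (ResidueField V) l 3).1 h3)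
    omega
  exact sum_hom_units_eq_zero _ hne

end FLTAgent.Lowering.P3.Levels
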