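import Fermat.Agent.Lowering.P3.Kummer.Interface
import Fermat.Agent.Lowering.P3.Levels.Groups
import Fermat.Agent.Lowering.P3.Levels.Sheet

/-!
# The degree of the field of `±Γ(n) ∩ ±Γ₁(l)` over that of `±Γ(n) ∩ Γ₀(l)`
-/

set_option autoImplicit false
set_option linter.unusedSectionVars false
set_option linter.style.haveILetI false
set_option maxHeartbeats 1600000
set_option synthInstance.maxHeartbeats 400000

noncomputable section

open UpperHalfPlane hiding I I_re I_im
open Filter Topology Complex Function FLTAgent.ModEq FLTAgent.GoodModel ModularCurve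
open AlgebraicCurve FLTAgent.Curves
open scoped MatrixGroups IntermediateField

namespace FLTAgent.Lowering.P3.Levels

open FLTAgent.DeligneSerre

local notation "LL" => AlgebraicClosure ℚ

/-- The lower right entry modulo `l` on `±Γ(n) ∩ Γ₀(l)`. -/
def lowerRight (n l : ℕ) : grp0 n l →* (ZMod l)ˣ :=
  MonoidHom.toHomUnits
    { toFun := fun g => (((g : SL(2, ℤ)) 1 1 : ℤ) : ZMod l)
      map_one' := by simp
      map_mul' := fun g h => by
        have h0 : (((g : SL(2, ℤ)) 1 0 : ℤ) : ZMod l) = 0 := CongruenceSubgroup.Gamma0_mem.mp g.2.2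
        simp [Matrix.mul_apply, Fin.sum_univ_two, h0] }

theorem coe_lowerRight {n l : ℕ} (g : grp0 n l) :
    ((lowerRight n l g : (ZMod l)ˣ) : ZMod l) = (((g : SL(2, ℤ)) 1 1 : ℤ) : ZMod l) := rfl

theorem relIndex_grp1 {n l : ℕ} [Fact l.Prime] (hnl : n.Coprime l) (h2 : l ≠ 2) :
    (grp1 n l).relIndex (grp0 n l) = (l - 1) / 2 := by
  have hl : l.Prime := Fact.out
  haveI : NeZero l := ⟨hl.ne_zero⟩
  set f := (QuotientGroup.mk' (Subgroup.zpowers (-1 : (ZMod l)ˣ))).comp (lowerRight n l)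
  have hker : f.ker = (grp1 n l).subgroupOf (grp0 n l) := by
    ext g
    have hz : lowerRight n l g ∈ Subgroup.zpowers (-1 : (ZMod l)ˣ) ↔
        lowerRight n l g = 1 ∨ lowerRight n l g = -1 := by
      refine ⟨fun h => ?_, ?_⟩
      · obtain ⟨k, hk⟩ := Subgroup.mem_zpowers_iff.1 h
        rw [← hk]
        rcases Int.even_or_odd k with e | e
        · exact Or.inl e.neg_one_zpow
        · exact Or.inr e.neg_one_zpow
      · rintro (h | h) <;> rw [h]
        exacts [one_mem _, Subgroup.mem_zpowers _]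
    rw [MonoidHom.mem_ker, MonoidHom.comp_apply, QuotientGroup.mk'_apply, QuotientGroup.eq_one_iff,
      hz, Subgroup.mem_subgroupOf]
    simp only [Units.ext_iff, coe_lowerRight, Units.val_one, Units.val_neg]
    exact ⟨fun h => ⟨g.2.1, mem_pmGamma1_iff.mpr ⟨CongruenceSubgroup.Gamma0_mem.mp g.2.2, h⟩⟩,
      fun h => (mem_pmGamma1_iff.mp h.2).2⟩
  have hsurj : Surjective f := by
    intro q
    obtain ⟨u, rfl⟩ := QuotientGroup.mk'_surjective _ q
    obtain ⟨e, he⟩ : ∃ e : SL(2, ℤ), ((e 1 0 : ℤ) : ZMod l) = 0 ∧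
        ((e 1 1 : ℤ) : ZMod l) = (u : ZMod l) := by
      have hc : (u : ZMod l).val.Coprime l := by
        rw [← ZMod.isUnit_iff_coprime, ZMod.natCast_zmod_val]
        exact u.isUnit
      refine ⟨gammaLower _ hc, ?_, ?_⟩
      · exact CongruenceSubgroup.Gamma0_mem.mp (gammaLower _ hc).2
      · rw [gammaLower_entry, Int.cast_natCast, ZMod.natCast_zmod_val]
    obtain ⟨k, hk, hk'⟩ := exists_congr hnl e
    obtain ⟨w, hw, rfl⟩ : ∃ w, w ∈ CongruenceSubgroup.Gamma l ∧ e = k * w :=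
      ⟨_, hk', (mul_inv_cancel_left k e).symm⟩
    obtain ⟨m00, m01, k10, k11⟩ := CongruenceSubgroup.Gamma_mem.mp hw
    have e10 : ((k 1 0 : ℤ) : ZMod l) = 0 := by
      simpa [Matrix.mul_apply, Fin.sum_univ_two, m00, m01, k10, k11] using he.1
    refine ⟨⟨k, Or.inl hk, CongruenceSubgroup.Gamma0_mem.mpr e10⟩, ?_⟩
    rw [MonoidHom.comp_apply]
    congr 1
    refine Units.ext ?_
    rw [coe_lowerRight, ← he.2]
    simp [Matrix.mul_apply, Fin.sum_univ_two, m01, k11, e10]
  rw [Subgroup.relIndex, ← hker, Subgroup.index_ker, MonoidHom.range_eq_top.2 hsurj,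
    Subgroup.card_top]
  have hcard := Subgroup.card_eq_card_quotient_mul_card_subgroup
    (Subgroup.zpowers (-1 : (ZMod l)ˣ))
  haveI : Fact (2 < l) := ⟨by have := hl.two_le; omega⟩
  rw [Nat.card_zpowers, orderOf_eq_prime (p := 2) neg_one_sq (by
      intro h
      have := congrArg Units.val h
      simp only [Units.val_neg, Units.val_one] at this
      exact ZMod.neg_one_ne_one this),
    Nat.card_eq_fintype_card, ZMod.card_units] at hcard
  omega

section Fields

variable {κ : LL →+* ℂ} {M0 N' l : ℕ} [NeZero M0] [NeZero N'] [NeZero l] [NeZero (M0 * N')]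
  [NeZero (N' * l)] [NeZero (M0 * (N' * l))] (P' : Frame κ.range M0 (N' * l))
  {H : Subgroup SL(2, ℤ)}

local notation "φ₀" => toLL κ
local notation "hφ₀" => toLL_surjective κ

/-- The element of `fldQ` which is `j` upstairs. -/
def jQ (hH : H = grp0 (M0 * N') l ∨ H = grp1 (M0 * N') l) : fldQ P' H :=
  (upEquiv hH).symm ⟨P'.jj φ₀ hφ₀, P'.jj_mem_fixedFld φ₀ hφ₀ H⟩

theorem up_jQ (hH : H = grp0 (M0 * N') l ∨ H = grp1 (M0 * N') l) :
    up H (jQ P' hH) = P'.jj φ₀ hφ₀ :=
  up_symm hH _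

theorem finrank_jQ (hH : H = grp0 (M0 * N') l ∨ H = grp1 (M0 * N') l) :
    Module.finrank LL⟮jQ P' hH⟯ (fldQ P' H) = H.index := by
  set e := upEquiv (P' := P') hH
  set jE : P'.fixedFld φ₀ hφ₀ H := ⟨P'.jj φ₀ hφ₀, P'.jj_mem_fixedFld φ₀ hφ₀ H⟩
  have hmap : LL⟮jQ P' hH⟯.map e.toAlgHom = LL⟮jE⟯ := by
    rw [IntermediateField.adjoin_map, Set.image_singleton]
    exact congrArg _ (congrArg _ (e.apply_symm_apply jE))
  let e' : LL⟮jQ P' hH⟯ ≃ₐ[LL] LL⟮jE⟯ :=
    (LL⟮jQ P' hH⟯.equivMap e.toAlgHom).trans (IntermediateField.equivOfEq hmap)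
  exact (Algebra.finrank_eq_of_equiv_equiv e'.toRingEquiv e.toRingEquiv
    (RingHom.ext fun _ => rfl)).trans
      ((P'.finrank_fixedFld φ₀ hφ₀ (pmGamma_top_le hH)).trans rfl)

theorem finrankAlong_incl01 [Fact l.Prime] (hnl : (M0 * N').Coprime l) (h2 : l ≠ 2)
    [IsFunctionField LL (fldQ P' (grp0 (M0 * N') l))]
    [IsFunctionField LL (fldQ P' (grp1 (M0 * N') l))] :
    finrankAlong LL (incl01 P') = (l - 1) / 2 := by
  letI := algebraAlong (incl01 P')
  haveI := isScalarTower_along (incl01 P')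
  have hj : incl01 P' (jQ P' (Or.inl rfl)) = jQ P' (Or.inr rfl) := by
    refine Subtype.ext (qExpand_injective l ?_)
    rw [coe_incl01, ← coe_up, ← coe_up, up_jQ, up_jQ]
  have h3 := Kronecker.finrank_adjoin_algebraMap (K := LL)
    (F := fldQ P' (grp0 (M0 * N') l)) (F' := fldQ P' (grp1 (M0 * N') l)) (jQ P' (Or.inl rfl))
  change Module.finrank LL⟮incl01 P' (jQ P' (Or.inl rfl))⟯ _ = _ at h3
  have key : ∀ y, y = jQ P' (H := grp1 (M0 * N') l) (Or.inr rfl) →
      Module.finrank LL⟮y⟯ (fldQ P' (grp1 (M0 * N') l)) = (grp1 (M0 * N') l).index := by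
    rintro y rfl
    exact finrank_jQ P' _
  rw [key _ hj, finrank_jQ, ← Subgroup.relIndex_mul_index (grp1_le_grp0 (M0 * N') l),
    relIndex_grp1 hnl h2] at h3
  haveI : (grp0 (M0 * N') l).FiniteIndex :=
    Subgroup.finiteIndex_of_le (pmGamma_top_le (H := grp0 (M0 * N') l) (Or.inl rfl))
  exact (Nat.eq_of_mul_eq_mul_right (Nat.pos_of_ne_zero Subgroup.FiniteIndex.index_ne_zero)
    (h3.trans (mul_comm _ _))).symm

end Fields

end FLTAgent.Lowering.P3.Levels
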