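import Fermat.Agent.Lowering.P3.Levels.Galois

/-!
# The involution turns the diamond of `d` into that of `d⁻¹`
-/

set_option autoImplicit false
set_option linter.unusedSectionVars false
set_option linter.style.haveILetI false
set_option maxHeartbeats 1600000
set_option synthInstance.maxHeartbeats 200000

noncomputable section

open UpperHalfPlane hiding I I_re I_im
open Filter Topology Complex Function FLTAgent.ModEq FLTAgent.GoodModel ModularCurve
open scoped MatrixGroups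

namespace FLTAgent.Lowering.P3.Levels

open FLTAgent.DeligneSerre

local notation "LL" => AlgebraicClosure ℚ

variable {κ : LL →+* ℂ} {M0 N' l : ℕ} [NeZero M0] [NeZero N'] [NeZero l] [NeZero (M0 * N')]
  [NeZero (N' * l)] [NeZero (M0 * (N' * l))] {P' : Frame κ.range M0 (N' * l)}
  {H : Subgroup SL(2, ℤ)} [Fact l.Prime]

local notation "φ₀" => toLL κ
local notation "hφ₀" => toLL_surjective κ

/-- The involution on quotients of invariant functions. -/
theorem up_wInv_frac (hnl : (M0 * N').Coprime l)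
    (hH : H = grp0 (M0 * N') l ∨ H = grp1 (M0 * N') l) {x : fldQ P' H}
    {a b a' b' : modRing κ.range (M0 * (N' * l))} (ha : ∀ g ∈ H, transl g a = a)
    (hb : ∀ g ∈ H, transl g b = b)
    (hab : up H x = P'.redF φ₀ hφ₀ a / P'.redF φ₀ hφ₀ b)
    (ha' : ∀ τ : ℍ, (a' : ℍ → ℂ) τ = (a : ℍ → ℂ) (ModularGroup.S • affPt l 0 1 τ))
    (hb' : ∀ τ : ℍ, (b' : ℍ → ℂ) τ = (b : ℍ → ℂ) (ModularGroup.S • affPt l 0 1 τ)) :
    up H (wInv hnl hH x) = P'.redF φ₀ hφ₀ a' / P'.redF φ₀ hφ₀ b' := by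
  obtain ⟨a₁, -, hsa, -, hfa⟩ := exists_fricke hnl hH ha
  obtain ⟨b₁, -, hsb, -, hfb⟩ := exists_fricke hnl hH hb
  obtain rfl : a' = a₁ := Subtype.ext (funext fun τ => (ha' τ).trans (hfa τ).symm)
  obtain rfl : b' = b₁ := Subtype.ext (funext fun τ => (hb' τ).trans (hfb τ).symm)
  have hser : ∀ {f f' : modRing κ.range (M0 * (N' * l))},
      serM f' = qExpand κ.range l (serM f) →
      (P'.redF φ₀ hφ₀ f' : LaurentSeries LL) =
        qExpand LL l (P'.redF φ₀ hφ₀ f : LaurentSeries LL) := fun h => by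
    rw [P'.coe_redF, P'.coe_redF, red, RingHom.comp_apply, RingHom.comp_apply, h, coeffMap_qExpand]
  refine Subtype.ext ?_
  rw [coe_up, coe_wInv, hab, map_div₀, P'.psi_redF, P'.psi_redF, IntermediateField.coe_div,
    IntermediateField.coe_div, map_div₀, ← hser hsa, ← hser hsb]

/-- An element of `Γ₀(l) ∩ ±Γ(n)` and its conjugate by the involution. -/
theorem exists_wInv_dQ (hnl : (M0 * N').Coprime l)
    (hH : H = grp0 (M0 * N') l ∨ H = grp1 (M0 * N') l) {g : SL(2, ℤ)}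
    (hg : g ∈ grp0 (M0 * N') l) :
    ∃ (g' : SL(2, ℤ)) (hg' : g' ∈ grp0 (M0 * N') l), g' 1 1 = g 0 0 ∧
      ∀ x : fldQ P' H, dQ hH hg (wInv hnl hH x) = wInv hnl hH (dQ hH hg' x) := by
  obtain ⟨g', hg', h11, hgτ⟩ := exists_wconj hnl (Or.inl rfl) hg
  refine ⟨g', hg', h11, fun x => (up H).toRingHom.injective ?_⟩
  show up H _ = up H _
  obtain ⟨a, b, ha, hb, -, hab⟩ := exists_frac_inv (pmGamma_top_le hH)
    fun k hk => psi_up_of_mem hk x
  obtain ⟨a₁, -, -, -, hfa⟩ := exists_fricke hnl hH ha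
  obtain ⟨b₁, -, -, -, hfb⟩ := exists_fricke hnl hH hb
  have hnorm : ∀ (f : modRing κ.range (M0 * (N' * l))), (∀ k ∈ H, transl k f = f) →
      ∀ k ∈ H, transl k (transl g' f) = transl g' f := fun f hf k hk => by
    rw [transl_transl, show g' * k = g' * k * g'⁻¹ * g' by rw [inv_mul_cancel_right],
      ← transl_transl, hf _ (conj_mem hH hg' hk)]
  have hfun : ∀ {f f₁ : modRing κ.range (M0 * (N' * l))},
      (∀ τ : ℍ, (f₁ : ℍ → ℂ) τ = (f : ℍ → ℂ) (ModularGroup.S • affPt l 0 1 τ)) →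
      ∀ τ : ℍ, (transl g f₁ : ℍ → ℂ) τ =
        (transl g' f : ℍ → ℂ) (ModularGroup.S • affPt l 0 1 τ) := fun h τ => by
    rw [transl_apply, transl_apply, h, hgτ]
  rw [up_dQ, up_wInv_frac hnl hH ha hb hab hfa hfb, map_div₀, P'.psi_redF, P'.psi_redF,
    up_wInv_frac hnl hH (hnorm a ha) (hnorm b hb)
      (by rw [up_dQ, hab, map_div₀, P'.psi_redF, P'.psi_redF]) (hfun hfa) (hfun hfb)]

end FLTAgent.Lowering.P3.Levels
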