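import Fermat.Agent.Lowering.P3.Kummer.Param
import Fermat.Agent.Lowering.P3.Kummer.Swap
import Fermat.Agent.Lowering.P3.Kummer.Degree
import Fermat.Agent.Lowering.P3.Levels.Symmetry

/-!
# The Kummer cover of the two sheets
-/

set_option autoImplicit false
set_option linter.unusedSectionVars false
set_option linter.style.haveILetI false
set_option maxHeartbeats 1600000
set_option synthInstance.maxHeartbeats 400000

noncomputable section

open UpperHalfPlane hiding I I_re I_im
open Filter Topology Complex Function FLTAgent.ModEq FLTAgent.GoodModel ModularCurve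
open AlgebraicCurve FLTAgent.Curves IsLocalRing
open FLTAgent.Specialization (laurentReduction)
open scoped MatrixGroups IntermediateField

namespace FLTAgent.Lowering.P3.Levels

open FLTAgent.DeligneSerre FLTAgent.BadRed

local notation "LL" => AlgebraicClosure ℚ

theorem integralWrt_of_algHom {K F F' : Type*} [Field K] [IsAlgClosed K] [Field F] [Field F']
    [Algebra K F] [Algebra K F'] [IsFunctionField K F] [IsFunctionField K F'] (φ : F →ₐ[K] F')
    {x f : F} (h : IntegralWrt K (φ x) (φ f)) : IntegralWrt K x f := by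
  letI := algebraAlong φ
  haveI := isScalarTower_along φ
  haveI : Module.Finite F F' := Kronecker.moduleFinite_of_functionField K
  intro v hv
  obtain ⟨w, rfl⟩ := Specialization.exists_restrict_eq (F' := F') v
  have key : ∀ g : F, w.ord (φ g) = (w.ramificationIndex F : ℤ) * (w.restrict F).ord g := fun g =>
    w.ord_restrict g
  rcases eq_or_ne f 0 with rfl | hf
  · exact Or.inl rfl
  have h1 := (h w (by rw [key]; exact mul_nonneg (Int.natCast_nonneg _) hv)).le_ord
    ((_root_.map_ne_zero φ).2 hf)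
  rw [key] at h1
  refine Or.inr (by_contra fun hlt => ?_)
  rcases (Int.natCast_nonneg (w.ramificationIndex F)).lt_or_eq with hpos | hzero
  · nlinarith
  · exact absurd hzero.symm (by exact_mod_cast (w.ramificationIndex_pos (F := F)).ne')

variable {κ : LL →+* ℂ} {M0 N' l : ℕ} [NeZero M0] [NeZero N'] [NeZero l] [NeZero (M0 * N')]
  [NeZero (N' * l)] [NeZero (M0 * (N' * l))] {V : ValuationSubring LL} [Fact l.Prime]

namespace Data

variable (d : Data κ M0 N' l V)

/-- An element of the larger field fixed by all diamonds comes from the smaller one. -/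
theorem exists_descend {y : d.F₁}
    (hy : ∀ g (hg : g ∈ grp0 (M0 * N') l), dQ (Or.inr rfl) hg y = y) :
    ∃ y₀ : d.F₀, incl01 d.top y₀ = y := by
  obtain ⟨y₀, hy₀⟩ := exists_up_of_fixed d.top (H := grp0 (M0 * N') l) (T_mem (Or.inl rfl))
    (z := up (grp1 (M0 * N') l) y)
    ((d.top.mem_fixedFld (toLL κ) (toLL_surjective κ)).2 fun g hg => by
      rw [d.top.act_apply, ← up_dQ (Or.inr rfl) (inv_mem hg), hy])
  refine ⟨y₀, (up (grp1 (M0 * N') l)).toRingHom.injective (Subtype.ext ?_)⟩
  show (up _ (incl01 d.top y₀) : LaurentSeries LL) =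
    (up (grp1 (M0 * N') l) y : LaurentSeries LL)
  rw [← hy₀, coe_up, coe_up, coe_incl01]

theorem wInv_incl01 (f : d.F₀) :
    wInv d.cop (Or.inr rfl) (incl01 d.top f) = incl01 d.top (d.swap f) := by
  refine Subtype.ext ?_
  rw [coe_incl01, swap, coe_wInv, coe_wInv]
  congr 2

theorem res_incl01 {π : V →+* ResidueField V} {f : d.F₀} {g : LaurentSeries (ResidueField V)}
    (h : (laurentReduction π d.F₁).Res (incl01 d.top f) g) :
    (laurentReduction π d.F₀).Res f g := by
  obtain ⟨a, b, hab, rfl⟩ := exists_gauss_of_res h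
  exact res_of_gauss hab

theorem up_sheet_X [IsAlgClosed (ResidueField V)] [CharP (ResidueField V) l]
    [IsFunctionField LL d.FC] [IsFunctionField LL d.F₀] [IsFunctionField (ResidueField V) d.Fb] :
    up (grp0 (M0 * N') l) d.sheet.X = d.top.jj (toLL κ) (toLL_surjective κ) := by
  refine Subtype.ext ?_
  rw [coe_up, coe_X, d.top.coe_jj, jAt_one_left, jAt_one_left, jqNModC, jqNModC, qExpand_qExpand]
  congr 1
  ring_nf

/-- Functions regular at finite places of the top level are regular off the poles of `X`. -/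
theorem integralWrt_of_redF [IsAlgClosed (ResidueField V)] [CharP (ResidueField V) l]
    [IsFunctionField LL d.FC] [IsFunctionField LL d.F₀] [IsFunctionField (ResidueField V) d.Fb]
    {f : d.F₀} {a : modRing κ.range (M0 * (N' * l))}
    (h : up (grp0 (M0 * N') l) f = d.top.redF (toLL κ) (toLL_surjective κ) a) :
    IntegralWrt LL d.sheet.X f := by
  haveI := d.top.isFunctionField (toLL κ) (toLL_surjective κ)
  refine integralWrt_of_algHom (up (grp0 (M0 * N') l)) fun v hv => ?_
  rw [up_sheet_X] at hv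
  rw [h]
  exact d.top.ordGE_redF (toLL κ) (toLL_surjective κ) a hv

end Data

variable [IsAlgClosed (ResidueField V)] [CharP (ResidueField V) l] (d : Data κ M0 N' l V)
  [IsFunctionField LL d.FC] [IsFunctionField LL d.F₀] [IsFunctionField LL d.F₁]
  [IsFunctionField (ResidueField V) d.Fb]

/-- The cover by `±Γ(n) ∩ ±Γ₁(l)`. -/
theorem exists_cover (hsz : TargetSimpleZeros) (hunr : TargetUnramified) (hpsi : TargetSheetPsi)
    (h5 : 5 ≤ l) (hn4 : 4 ≤ M0 * N') (N : d.sheet.Nodes) :
    letI := algebraAlong (incl01 d.top)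
    haveI := isScalarTower_along (incl01 d.top)
    ∃ C : Cover d.sheet N d.F₁, C.Q₁ = laurentReduction (residue V) d.F₁ ∧
      C.Q₂ = comapReduction (wInv d.cop (Or.inr rfl)) (laurentReduction (residue V) d.F₁) := by
  classical
  letI := algebraAlong (incl01 d.top)
  haveI := isScalarTower_along (incl01 d.top)
  let φ₀ := toLL κ
  have hφ₀ := toLL_surjective κ
  obtain ⟨χ⟩ := nonempty_sqChar (V := V) (l := l) (by omega)
  obtain ⟨P⟩ := d.nonempty_param χ h5
  set m := (l - 1) / 2 with hm
  have hm0 : 0 < m := by omega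
  set η := (coeffMap d.red₀ P.G)⁻¹
  have hηne : η ≠ 0 := inv_ne_zero P.G_ne
  set w₁ := wInv d.cop (H := grp1 (M0 * N') l) (Or.inr rfl)
  -- the power of the parameter
  have hψm : ∀ δ : (ZMod l)ˣ, ((χ.ψ δ : V) : LL) ^ m = 1 := fun δ => by
    rw [← SubmonoidClass.coe_pow, ← Units.val_pow_eq_pow_val, χ.pow, Units.val_one,
      OneMemClass.coe_one]
  obtain ⟨U₀, hU₀⟩ := d.exists_descend (y := P.cx ^ m) fun g hg => by
    obtain ⟨δ, hδ⟩ := exists_unit_lowerRight hg.2
    rw [map_pow, d.dQ_cx P hg hδ, mul_pow, ← map_pow, hψm, map_one, one_mul]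
  obtain ⟨W₀, hW₀⟩ := d.exists_descend (y := P.cx * w₁ P.cx) fun g hg => by
    obtain ⟨g', hg', h11, hsw⟩ := exists_wInv_dQ (P' := d.top) d.cop (H := grp1 (M0 * N') l)
      (Or.inr rfl) hg
    obtain ⟨δ, hδ⟩ := exists_unit_lowerRight hg.2
    have hδ' : ((g' 1 1 : ℤ) : ZMod l) = ((δ⁻¹ : (ZMod l)ˣ) : ZMod l) := by
      have hdet := congrArg (fun z : ℤ => (z : ZMod l))
        (Matrix.det_fin_two (g : Matrix (Fin 2) (Fin 2) ℤ))
      rw [g.det_coe] at hdet
      push_cast at hdet
      rw [CongruenceSubgroup.Gamma0_mem.mp hg.2, mul_zero, sub_zero, hδ] at hdet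
      rw [h11]
      exact Units.eq_inv_of_mul_eq_one_left ((mul_comm _ _).trans hdet.symm)
    rw [map_mul, hsw, d.dQ_cx P hg hδ, d.dQ_cx P hg' hδ', inv_inv, map_mul, AlgHom.commutes,
      mul_mul_mul_comm, ← map_mul, ← MulMemClass.coe_mul, ← Units.val_mul, ← map_mul,
      inv_mul_cancel, map_one, Units.val_one, OneMemClass.coe_one, map_one, one_mul]
  set U : d.F₀ := algebraMap LL d.F₀ ((P.lam : LL) ^ m) * U₀ with hUdef
  set W : d.F₀ := algebraMap LL d.F₀ (P.lam : LL) * W₀ with hWdef
  have hxU : ((P.lam : LL) • P.cx) ^ m = incl01 d.top U := by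
    rw [Algebra.smul_def, mul_pow, hUdef, map_mul, AlgHom.commutes, hU₀, map_pow]
  have hrU : (laurentReduction (residue V) d.F₁).Res (incl01 d.top U) (η ^ m) :=
    hxU ▸ P.res₁.pow m
  have hrW : (laurentReduction (residue V) d.F₁).Res (incl01 d.top W) (η * P.ρ) := by
    rw [hWdef, map_mul, AlgHom.commutes, hW₀, ← mul_assoc, ← Algebra.smul_def]
    exact P.res₁.mul P.res₂
  let ub : d.Fb := ⟨η ^ m, d.pre.res_mem.1 (d.res_incl01 hrU)⟩
  let e : d.Fb := ⟨η * P.ρ, d.pre.res_mem.1 (d.res_incl01 hrW)⟩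
  -- both reductions of `U`
  have hU1 : d.sheet.R₁.Res U ub := d.sheet_res₁.2 (d.res_incl01 hrU)
  have hwU0 : (laurentReduction (residue V) d.F₁).Res (incl01 d.top (d.swap U)) 0 := by
    rw [← d.wInv_incl01, hUdef, map_mul, AlgHom.commutes, hU₀, map_mul, AlgHom.commutes, map_pow w₁]
    have h := ((laurentReduction (residue V) d.F₁).res_algebraMap (P.lam ^ m)).mul (P.res₂.pow m)
    rw [map_pow (residue V), P.lam_red, zero_pow hm0.ne', map_zero, zero_mul,
      SubmonoidClass.coe_pow] at h
    exact h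
  have hU2 : d.sheet.R₂.Res U 0 := d.sheet_res₂.2 (d.res_incl01 hwU0)
  have hV1 : d.sheet.R₁.Res (d.swap U) 0 := d.sheet_res₁.2 (d.res_incl01 hwU0)
  have hV2 : d.sheet.R₂.Res (d.swap U) ub :=
    d.sheet_res₂.2 (by rw [d.swap_swap]; exact d.res_incl01 hrU)
  have hp1 : (d.sheet.pair 1).Res U (ub, 0) := ⟨hU1, by rw [one_smul]; exact hU2⟩
  have hp2 : (d.sheet.pair 1).Res (d.swap U) (0, ub) := ⟨hV1, by rw [one_smul]; exact hV2⟩
  -- functions of the top level
  let cM : (ZMod l)ˣ → modRing κ.range (M0 * (N' * l)) := fun a =>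
    constM (κ.rangeRestrict (Data.coef χ a)) * wqM d.top (good4_kummer d.top (not_dvd_val a))
  let UM : modRing κ.range (M0 * (N' * l)) :=
    constM (κ.rangeRestrict ((P.lam : LL) ^ m)) * (∑ a, cM a) ^ m
  have htoLL : ∀ c : LL, toLL κ (κ.rangeRestrict c) = c := fun c =>
    κ.injective (toLL_spec (κ.rangeRestrict c))
  have hupcx : up (grp0 (M0 * N') l) U₀ = (d.topParam χ) ^ m := by
    rw [← P.up_cx, ← map_pow, ← hU₀]
    exact Subtype.ext (by rw [coe_up, coe_up, coe_incl01])
  have hupU : up (grp0 (M0 * N') l) U = d.top.redF φ₀ hφ₀ UM := by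
    rw [hUdef, map_mul, AlgHom.commutes, hupcx]
    simp only [UM, cM, map_mul, map_pow, map_sum, d.top.redF_constM, φ₀, htoLL]
    rfl
  have hint : IntegralWrt LL d.sheet.X U := d.integralWrt_of_redF hupU
  have hUM : ∀ g ∈ grp0 (M0 * N') l, transl g UM = UM := fun g hg => by
    have hinj : Injective (d.top.redF φ₀ hφ₀) := fun u v h =>
      serM_injective (coeffMap_injective φ₀ (toLL_injective κ) (congrArg Subtype.val h))
    refine hinj ?_
    rw [← d.top.psi_redF, ← hupU, psi_up_of_mem hg]
  have hint' : IntegralWrt LL d.sheet.X (d.swap U) := by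
    obtain ⟨a', -, -, -, hfa⟩ := exists_fricke d.cop (H := grp0 (M0 * N') l) (Or.inl rfl) hUM
    refine d.integralWrt_of_redF (a := a') ?_
    rw [Data.swap, up_wInv_frac d.cop (Or.inl rfl) (b := 1) (b' := 1) hUM
      (fun g _ => map_one _) (by rw [map_one, div_one]; exact hupU) hfa (fun τ => rfl),
      map_one, div_one]
  have hnode : ∀ i, N.s i ub = 0 ∧ N.s i (d.sheet.V ub) = 0 := fun i => by
    have key : ∀ {f : d.F₀} {g : d.Fb × d.Fb}, IntegralWrt LL d.sheet.X f →
        (d.sheet.pair 1).Res f g → N.s i g.1 = N.s i (d.sheet.V g.2) := fun {f g} hf hfg => by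
      obtain ⟨k, hk⟩ := exists_inftyBound (K := LL) d.sheet.X f
      exact N.compat k g (LRed.mem_image_of_res (mem_rrSpace_poles.2 ⟨hf, hk⟩) hfg) i
    refine ⟨?_, ?_⟩
    · simpa using key hint hp1
    · simpa using (key hint' hp2).symm
  have hreg : IntegralWrt (ResidueField V) d.sheet.MC.xb ub :=
    (d.sheet.integralWrt_res hint hp1).1
  -- invariance of the branch function
  have hinv : ∀ g ∈ pmGamma M0, d.fr.act d.red₀ d.red₀_surj g ub = ub := fun g hg => by
    obtain ⟨k, hk, hk'⟩ := exists_congr d.cop g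
    set g' := g⁻¹ * k
    have hg' : g' ∈ CongruenceSubgroup.Gamma l := by
      have := inv_mem hk'
      rwa [mul_inv_rev, inv_inv] at this
    have hkn : g⁻¹⁻¹ * g' ∈ pmGamma (M0 * N') := by
      rw [inv_inv, mul_inv_cancel_left]
      exact Or.inl hk
    obtain ⟨f', hf', hres'⟩ := hpsi d g⁻¹ g' hg' hkn U ub hU1
    have hgM : g' ∈ pmGamma M0 :=
      mul_mem (inv_mem hg) (pmGamma_mono (dvd_mul_right M0 N') (Or.inl hk))
    have h0 : g' ∈ CongruenceSubgroup.Gamma0 l := Gamma_le_Gamma0' l hg'
    have hx : d.top.psi (toLL κ) (toLL_surjective κ) g' (d.topParam χ) = d.topParam χ := by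
      rw [Data.topParam, map_sum]
      refine Finset.sum_congr rfl fun a _ => ?_
      rw [map_mul, AlgHom.commutes, psi_xa_of_mem d.top hgM h0 (δ := 1)
        (by simpa using (CongruenceSubgroup.Gamma_mem.mp hg').2.2.2), mul_one]
    have hfix : f' = U := by
      refine (up (grp0 (M0 * N') l)).toRingHom.injective ?_
      show up _ f' = up _ U
      rw [hf', hUdef, map_mul, AlgHom.commutes, hupcx, map_mul, AlgHom.commutes,
        map_pow (d.top.psi (toLL κ) (toLL_surjective κ) g'), hx]
    rw [hfix] at hres'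
    rw [d.fr.act_apply]
    exact hres'.unique hU1
  have hub : (ub : LaurentSeries (ResidueField V)) * coeffMap d.red₀ P.G ^ ((l - 1) / 2) = 1 := by
    show η ^ m * _ = 1
    rw [← hm, ← mul_pow, inv_mul_cancel₀ P.G_ne, one_pow]
  obtain ⟨hsimp, hzero⟩ := hsz d.fr d.red₀ d.red₀_surj l h5 P.G P.G_spec ub hub hreg hinv
  have hmk : ((m : ℕ) : ResidueField V) ≠ 0 := fun h => by
    rw [CharP.cast_eq_zero_iff (ResidueField V) l] at h
    have := Nat.le_of_dvd hm0 h
    omega
  refine ⟨
    { m := m
      pos := hm0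
      m_ne := hmk
      Q₁ := laurentReduction (residue V) d.F₁
      Q₂ := comapReduction w₁ (laurentReduction (residue V) d.F₁)
      ext₁ := fun f g h => ?_
      ext₂ := fun f g h => ?_
      finrank_eq := finrankAlong_incl01 d.top d.cop (by omega)
      x := (P.lam : LL) • P.cx
      U := U
      x_pow := hxU
      η := η
      ub := ub
      η_pow := rfl
      c := (P.lam : LL)⁻¹
      c_ne := inv_ne_zero P.lam_ne
      e := e
      e_ne := fun h => mul_ne_zero hηne P.ρ_ne (congrArg Subtype.val h)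
      res₁ := P.res₁
      res₂ := ?_
      unramified := hunr d.top d.cop hn4 h5 _ U m hxU
      ub_regular := hreg
      simple := fun v hv hne => (hsimp v hv).resolve_left hne
      exists_zero := hzero
      node_zero := hnode }, rfl, rfl⟩
  · exact Specialization.laurentReduction_compat (fldQ_mono (grp1_le_grp0 (M0 * N') l))
      (d.sheet_res₁.1 h)
  · rw [comapReduction_res]
    show (laurentReduction (residue V) d.F₁).Res (w₁ (incl01 d.top f)) _
    rw [d.wInv_incl01]
    exact Specialization.laurentReduction_compat (fldQ_mono (grp1_le_grp0 (M0 * N') l))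
      (d.sheet_res₂.1 h)
  · rw [comapReduction_res, smul_smul, inv_mul_cancel₀ P.lam_ne, one_smul]
    show (laurentReduction (residue V) d.F₁).Res (w₁ P.cx) (η * P.ρ / η)
    rw [mul_div_cancel_left₀ _ hηne]
    exact P.res₂

end FLTAgent.Lowering.P3.Levels
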