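import Fermat.Agent.GoodModel.TorsionSeries
import Fermat.Agent.Kronecker.Congruence

/-!
# Expansions of torsion values at multiples, and their residues after scaling
-/

set_option autoImplicit false
set_option linter.unusedSectionVars false

noncomputable section

open ModularCurve FLTAgent.GoodModel

namespace FLTAgent.Lowering.P3.Levels

variable {R : Type*} [CommRing R]

theorem wser_mul (N k : ℕ) [NeZero k] (a : ℤ) (w : Rˣ) :
    wser (N * k) (a * k) w = PowerSeries.expand k (NeZero.ne k) (wser N a w) := by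
  classical
  have hk : (k : ℤ) ≠ 0 := by exact_mod_cast NeZero.ne k
  ext m
  rcases eq_or_ne m 0 with rfl | hm
  · have h0 : PowerSeries.coeff (k * 0) (PowerSeries.expand k (NeZero.ne k) (wser N a w)) =
        PowerSeries.coeff 0 (wser N a w) := PowerSeries.coeff_expand_mul _ _ _ _
    rw [mul_zero] at h0
    rw [h0, wser_coeff_zero, wser_coeff_zero]
    refine if_congr ?_ rfl rfl
    push_cast
    exact mul_dvd_mul_iff_right hk
  · rw [wser_coeff_pos _ _ _ hm, wcoef]
    by_cases hd : k ∣ m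
    · obtain ⟨j, rfl⟩ := hd
      have hj : j ≠ 0 := fun h => hm (by rw [h, mul_zero])
      rw [show PowerSeries.coeff (k * j) (PowerSeries.expand k (NeZero.ne k) (wser N a w)) =
        PowerSeries.coeff j (wser N a w) from PowerSeries.coeff_expand_mul _ _ _ _,
        wser_coeff_pos _ _ _ hj, wcoef]
      refine (Finset.sum_subset (s₁ := j.divisors) (fun d hdj => ?_) fun d hdm hdj => ?_).symm.trans
        (Finset.sum_congr rfl fun d hdj => ?_)
      · rw [Nat.mem_divisors] at hdj ⊢
        exact ⟨hdj.1.mul_left k, hm⟩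
      · obtain ⟨⟨e, he⟩, -⟩ := Nat.mem_divisors.mp hdm
        have hd0 : d ≠ 0 := fun h => hm (by rw [he, h, zero_mul])
        have he' : k * j / d = e := by rw [he, Nat.mul_div_cancel_left _ (Nat.pos_of_ne_zero hd0)]
        have hne : ¬ (k : ℤ) ∣ (e : ℤ) := fun ⟨t, ht⟩ => hdj (Nat.mem_divisors.mpr ⟨?_, hj⟩)
        · rw [if_neg, if_neg, add_zero, mul_zero] <;> rw [he'] <;> rintro ⟨t, ht⟩
          · exact hne ⟨(N : ℤ) * t - a, by push_cast at ht; linear_combination ht⟩
          · exact hne ⟨(N : ℤ) * t + a, by push_cast at ht; linear_combination ht⟩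
        · have hke : k ∣ e := Int.natCast_dvd_natCast.mp ⟨t, ht⟩
          obtain ⟨s, rfl⟩ := hke
          exact ⟨s, Nat.eq_of_mul_eq_mul_left (Nat.pos_of_ne_zero (NeZero.ne k))
            (by rw [he]; ring)⟩
      · obtain ⟨hdj', -⟩ := Nat.mem_divisors.mp hdj
        rw [Nat.mul_div_assoc k hdj']
        congr 2
        · refine if_congr ?_ rfl rfl
          simp only [Nat.cast_mul]
          rw [show (k : ℤ) * (j / d : ℕ) - a * k = ((j / d : ℕ) - a) * k by ring]
          exact mul_dvd_mul_iff_right hk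
        · refine if_congr ?_ rfl rfl
          simp only [Nat.cast_mul]
          rw [show (k : ℤ) * (j / d : ℕ) + a * k = ((j / d : ℕ) + a) * k by ring]
          exact mul_dvd_mul_iff_right hk
    · rw [PowerSeries.coeff_expand_of_not_dvd _ _ _ hd]
      refine Finset.sum_eq_zero fun d hdm => ?_
      obtain ⟨⟨e, he⟩, -⟩ := Nat.mem_divisors.mp hdm
      have hd0 : d ≠ 0 := fun h => hm (by rw [he, h, zero_mul])
      have he' : m / d = e := by rw [he, Nat.mul_div_cancel_left _ (Nat.pos_of_ne_zero hd0)]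
      have hne : ¬ (k : ℤ) ∣ (e : ℤ) := fun h =>
        hd (he ▸ (Int.natCast_dvd_natCast.mp h).mul_left d)
      rw [if_neg, if_neg, add_zero, mul_zero] <;> rw [he'] <;> rintro ⟨t, ht⟩
      · exact hne ⟨(N : ℤ) * t - a, by push_cast at ht; linear_combination ht⟩
      · exact hne ⟨(N : ℤ) * t + a, by push_cast at ht; linear_combination ht⟩

theorem wser_of_eq (N k M : ℕ) [NeZero k] {a b : ℤ} (hM : M = N * k) (hb : b = a * k) (w : Rˣ) :
    wser M b w = PowerSeries.expand k (NeZero.ne k) (wser N a w) := by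
  subst hM hb
  exact wser_mul N k a w

theorem expand_expand' {p q r : ℕ} [NeZero p] [NeZero q] [NeZero r] (h : r = p * q)
    (f : PowerSeries R) : PowerSeries.expand r (NeZero.ne r) f =
      PowerSeries.expand p (NeZero.ne p) (PowerSeries.expand q (NeZero.ne q) f) := by
  subst h
  exact PowerSeries.expand_mul p (NeZero.ne p) q (NeZero.ne q) f

section Kummer

variable (M0 N' l : ℕ) [NeZero (M0 * N')] [NeZero N'] [NeZero (N' * l)]

/-- The numerator at infinity. -/
def numSer (ζ z : Rˣ) (a : ℕ) : PowerSeries R :=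
  PowerSeries.expand (M0 * N') (NeZero.ne _) (wser 1 0 (ζ ^ a)) -
    PowerSeries.expand N' (NeZero.ne _) (wser M0 1 z)

/-- The denominator at infinity. -/
def denSer (z : Rˣ) : PowerSeries R :=
  PowerSeries.expand N' (NeZero.ne _) (wser M0 1 1 - wser M0 1 z)

/-- The numerator at the other cusp. -/
def numSer₂ (z : Rˣ) (a : ℕ) : PowerSeries R :=
  PowerSeries.expand (M0 * N') (NeZero.ne _) (wser l (a : ℤ) 1) -
    PowerSeries.expand (N' * l) (NeZero.ne _) (wser M0 1 z⁻¹)

/-- The denominator at the other cusp. -/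
def denSer₂ (z : Rˣ) : PowerSeries R :=
  PowerSeries.expand (N' * l) (NeZero.ne _) (wser M0 0 z⁻¹ - wser M0 1 z⁻¹)

end Kummer

/-- The series of level one of `ζ ^ a` scaled by `(1 - ζ) ^ 2`. -/
def scaledSer (ζ : Rˣ) (a : ℕ) : PowerSeries R :=
  PowerSeries.mk fun m => if m = 0 then
    ((ζ ^ a : Rˣ) : R) * Ring.inverse (∑ i ∈ Finset.range a, (ζ : R) ^ i) ^ 2
  else (1 - (ζ : R)) ^ 2 * wcoef 1 0 (ζ ^ a) m

theorem map_scaledSer {K : Type*} [Field K] (f : R →+* K) (ζ : Rˣ) {a : ℕ}
    (hs : IsUnit (∑ i ∈ Finset.range a, (ζ : R) ^ i))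
    (hne : f (1 - (ζ : R)) ≠ 0) :
    (scaledSer ζ a).map f = PowerSeries.C (f (1 - (ζ : R)) ^ 2) *
      wser 1 0 (Units.map (f : R →* K) ζ ^ a) := by
  ext m
  rw [PowerSeries.coeff_map, scaledSer, PowerSeries.coeff_mk, PowerSeries.coeff_C_mul]
  rcases eq_or_ne m 0 with rfl | hm
  · rw [if_pos rfl, wser_coeff_zero, if_pos (dvd_zero _)]
    obtain ⟨s, hs'⟩ := hs
    rw [← hs', Ring.inverse_unit, map_mul, map_pow, Units.val_pow_eq_pow_val, map_pow,
      Units.val_pow_eq_pow_val, Units.coe_map, MonoidHom.coe_coe, Ring.inverse_eq_inv']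
    have hsum : f (1 - (ζ : R)) * f (s : R) = 1 - f (ζ : R) ^ a := by
      rw [← map_mul, hs', mul_neg_geom_sum, map_sub, map_one, map_pow]
    have hfs : f ((s⁻¹ : Rˣ) : R) = (f (s : R))⁻¹ :=
      eq_inv_of_mul_eq_one_left (by rw [← map_mul, Units.inv_mul, map_one])
    have hs0 : f (s : R) ≠ 0 := fun h => by
      have h1 := congrArg f (Units.inv_mul s)
      rw [map_mul, h, mul_zero, map_one] at h1
      exact zero_ne_one h1
    rw [hfs, ← hsum]
    field_simp
  · rw [if_neg hm, wser_coeff_pos _ _ _ hm, map_mul, map_pow]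
    congr 1
    rw [← map_pow (Units.map (f : R →* K)), wcoef, wcoef, map_sum]
    refine Finset.sum_congr rfl fun k _ => ?_
    rw [map_mul, map_natCast, map_add]
    congr 2 <;> split_ifs <;> simp [← map_inv, ← map_pow]

theorem map_scaledSer_residue {K : Type*} [Field K] (f : R →+* K) (ζ : Rˣ) {a : ℕ}
    (hs : IsUnit (∑ i ∈ Finset.range a, (ζ : R) ^ i)) (hζ : f (ζ : R) = 1) :
    (scaledSer ζ a).map f = PowerSeries.C (((a : K) ^ 2)⁻¹) := by
  ext m
  rw [PowerSeries.coeff_map, scaledSer, PowerSeries.coeff_mk, PowerSeries.coeff_C]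
  rcases eq_or_ne m 0 with rfl | hm
  · rw [if_pos rfl, if_pos rfl]
    obtain ⟨s, hs'⟩ := hs
    have hfs : f (s : R) = a := by
      rw [hs', map_sum]
      simp [hζ]
    rw [← hs', Ring.inverse_unit, map_mul, map_pow, Units.val_pow_eq_pow_val, map_pow, hζ, one_pow,
      one_mul]
    rw [show f ((s⁻¹ : Rˣ) : R) = (f (s : R))⁻¹ from
      eq_inv_of_mul_eq_one_left (by rw [← map_mul, Units.inv_mul, map_one]), hfs, inv_pow]
  · rw [if_neg hm, if_neg hm, map_mul, map_pow, map_sub, map_one, hζ, sub_self, zero_pow two_ne_zero,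
      zero_mul]

/-- The first coefficient of the series of level `l` at `a`. -/
theorem coeff_one_wser {l a : ℕ} (ha : 0 < a) (hal : a < l) :
    PowerSeries.coeff 1 (wser l (a : ℤ) (1 : Rˣ)) =
      (if a = 1 then 1 else 0) + (if a + 1 = l then 1 else 0) := by
  have iff1 : (l : ℤ) ∣ 1 - (a : ℤ) ↔ a = 1 := by
    refine ⟨fun h => ?_, fun h => by simp [h]⟩
    by_contra hne
    have := Int.le_of_dvd (by omega) (dvd_neg.mpr h : (l : ℤ) ∣ -(1 - (a : ℤ)))
    omega
  have iff2 : (l : ℤ) ∣ 1 + (a : ℤ) ↔ a + 1 = l := by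
    refine ⟨fun h => ?_, fun h => ⟨1, by rw [← h]; push_cast; ring⟩⟩
    have := Int.le_of_dvd (by omega) h
    omega
  rw [wser_coeff_pos _ _ _ one_ne_zero, wcoef, Nat.divisors_one, Finset.sum_singleton]
  simp [iff1, iff2]

theorem coeff_zero_wser {l a : ℕ} (ha : 0 < a) (hal : a < l) :
    PowerSeries.coeff 0 (wser l (a : ℤ) (1 : Rˣ)) = 0 := by
  rw [wser_coeff_zero, if_neg fun h => ?_]
  have := Int.le_of_dvd (by omega) h
  omega

end FLTAgent.Lowering.P3.Levels
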