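import Fermat.Agent.Lowering.P3.Levels.Galois
import Fermat.Agent.Lowering.P3.Kummer.Series

/-!
# The torsion values at the multiples of a point of order `l`, and their expansions
-/

set_option autoImplicit false
set_option linter.unusedSectionVars false
set_option linter.style.haveILetI false
set_option maxHeartbeats 1600000
set_option synthInstance.maxHeartbeats 200000

noncomputable section

open UpperHalfPlane hiding I I_re I_im
open Filter Topology Complex Function FLTAgent.ModEq FLTAgent.GoodModel ModularCurve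
open scoped MatrixGroups

namespace FLTAgent.Lowering.P3.Levels

open FLTAgent.DeligneSerre

local notation "LL" => AlgebraicClosure ℚ

variable {κ : LL →+* ℂ} {M0 N' l : ℕ} [NeZero M0] [NeZero N'] [NeZero l] [NeZero (M0 * N')]
  [NeZero (N' * l)] [NeZero (M0 * (N' * l))] (P' : Frame κ.range M0 (N' * l))

local notation "φ₀" => toLL κ
local notation "hφ₀" => toLL_surjective κ
local notation "MM" => M0 * (N' * l)

variable (M0 N' l) in
/-- A point of order `l` at the level `n l`. -/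
def lVec (a : ℕ) : Vec := (0, (a : ℤ) * (M0 * N' : ℕ))

variable (N' l) in
/-- A point of order `M₀` at the level `n l`. -/
def mVec (x y : ℤ) : Vec := (x * (N' * l : ℕ), y * (N' * l : ℕ))

theorem mul_cast_zero_iff {M k a : ℕ} [NeZero k] (hM : M = a * k) (x : ℤ) :
    ((x * (k : ℕ) : ℤ) : ZMod M) = 0 ↔ ((x : ℤ) : ZMod a) = 0 := by
  subst hM
  rw [ZMod.intCast_zmod_eq_zero_iff_dvd, ZMod.intCast_zmod_eq_zero_iff_dvd, Nat.cast_mul]
  exact mul_dvd_mul_iff_right (Int.natCast_ne_zero.2 (NeZero.ne k))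

theorem mul_cast_eq_iff {M k a : ℕ} [NeZero k] (hM : M = a * k) (x y : ℤ) :
    ((x * (k : ℕ) : ℤ) : ZMod M) = ((y * (k : ℕ) : ℤ) : ZMod M) ↔
      ((x : ℤ) : ZMod a) = ((y : ℤ) : ZMod a) := by
  rw [← sub_eq_zero, ← Int.cast_sub, ← sub_mul, mul_cast_zero_iff hM, Int.cast_sub, sub_eq_zero]

include P' in
theorem one_ne_zero_M0 : (1 : ZMod M0) ≠ 0 := by
  rcases P'.hM with rfl | rfl <;> decide

include P' in
theorem good4_kummer {a : ℕ} (ha : ¬ l ∣ a) :
    Good4 MM (lVec M0 N' a) (mVec N' l 1 1) (mVec N' l 1 0) (mVec N' l 1 1) := by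
  have h1 : (((1 : ℤ) * (N' * l : ℕ) : ℤ) : ZMod MM) ≠ 0 := by
    rw [Ne, mul_cast_zero_iff (a := M0) rfl]
    simpa using one_ne_zero_M0 P'
  refine ⟨Or.inr fun h => ha ?_, Or.inl h1, Or.inl h1, Or.inl h1, ?_⟩
  · change (((a : ℤ) * (M0 * N' : ℕ) : ℤ) : ZMod MM) = 0 at h
    rw [mul_cast_zero_iff (a := l) (by ring), Int.cast_natCast,
      ZMod.natCast_eq_zero_iff] at h
    exact h
  · rintro (⟨-, h⟩ | ⟨-, h⟩)
    · exact h1 (by simpa [mVec] using h.symm)
    · refine h1 ?_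
      simp only [mVec, Prod.neg_mk, zero_mul, Int.cast_zero, Int.cast_neg] at h
      exact neg_eq_zero.1 h.symm

variable [Fact l.Prime]

theorem not_dvd_val (a : (ZMod l)ˣ) : ¬ l ∣ (a : ZMod l).val := fun h =>
  a.ne_zero (by rw [← ZMod.natCast_zmod_val (a : ZMod l), (ZMod.natCast_eq_zero_iff _ _).2 h])

/-- The torsion value at the multiple `a` of a point of order `l`, with fixed normalisation. -/
def xa (a : (ZMod l)ˣ) : P'.fld φ₀ :=
  P'.redF φ₀ hφ₀ (wqM P' (good4_kummer P' (not_dvd_val a)))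

theorem mVec_vmul {g : SL(2, ℤ)} (hg : g ∈ pmGamma M0) (x y : ℤ) :
    PMEq MM (GoodModel.vmul (mVec N' l x y) g) (mVec N' l x y) := by
  have key : ∀ {h : SL(2, ℤ)}, h ∈ CongruenceSubgroup.Gamma M0 →
      VEq MM (GoodModel.vmul (mVec N' l x y) h) (mVec N' l x y) := by
    intro h hh
    obtain ⟨c00, c01, c10, c11⟩ := CongruenceSubgroup.Gamma_mem.mp hh
    constructor
    · show (((x * (N' * l : ℕ) * h 0 0 + y * (N' * l : ℕ) * h 1 0 : ℤ)) : ZMod MM) =
        ((x * (N' * l : ℕ) : ℤ) : ZMod MM)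
      rw [show x * (N' * l : ℕ) * h 0 0 + y * (N' * l : ℕ) * h 1 0 =
        (x * h 0 0 + y * h 1 0) * ((N' * l : ℕ) : ℤ) by ring, mul_cast_eq_iff (a := M0) rfl]
      push_cast
      rw [c00, c10]
      ring
    · show (((x * (N' * l : ℕ) * h 0 1 + y * (N' * l : ℕ) * h 1 1 : ℤ)) : ZMod MM) =
        ((y * (N' * l : ℕ) : ℤ) : ZMod MM)
      rw [show x * (N' * l : ℕ) * h 0 1 + y * (N' * l : ℕ) * h 1 1 =
        (x * h 0 1 + y * h 1 1) * ((N' * l : ℕ) : ℤ) by ring, mul_cast_eq_iff (a := M0) rfl]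
      push_cast
      rw [c01, c11]
      ring
  rcases hg with hg | hg
  · exact Or.inl (key hg)
  · refine Or.inr ?_
    obtain ⟨e1, e2⟩ := key hg
    constructor
    · have := congrArg Neg.neg e1
      simp [GoodModel.vmul] at this ⊢
      linear_combination this
    · have := congrArg Neg.neg e2
      simp [GoodModel.vmul] at this ⊢
      linear_combination this

/-- Translations by `Γ₀(l) ∩ ±Γ(n)` permute the values. -/
theorem psi_xa_of_mem {g : SL(2, ℤ)} (hM : g ∈ pmGamma M0)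
    (h0 : g ∈ CongruenceSubgroup.Gamma0 l) {δ : (ZMod l)ˣ}
    (hδ : ((g 1 1 : ℤ) : ZMod l) = (δ : ZMod l)) (a : (ZMod l)ˣ) :
    P'.psi φ₀ hφ₀ g (xa P' a) = xa P' (a * δ) := by
  rw [xa, xa, P'.psi_redF, transl_wqM]
  refine congrArg _ (wqM_congr P' _ _ (Or.inl ⟨?_, ?_⟩) (mVec_vmul hM 1 1) (mVec_vmul hM 1 0)
    (mVec_vmul hM 1 1))
  · show (((0 * g 0 0 + ((a : ZMod l).val : ℤ) * (M0 * N' : ℕ) * g 1 0 : ℤ)) : ZMod MM) =
      ((0 : ℤ) : ZMod MM)
    rw [show 0 * g 0 0 + ((a : ZMod l).val : ℤ) * (M0 * N' : ℕ) * g 1 0 =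
      (((a : ZMod l).val : ℤ) * g 1 0) * ((M0 * N' : ℕ) : ℤ) by ring,
      show (0 : ℤ) = 0 * ((M0 * N' : ℕ) : ℤ) by ring, mul_cast_eq_iff (a := l) (by ring),
      Int.cast_mul, CongruenceSubgroup.Gamma0_mem.mp h0, mul_zero, Int.cast_zero]
  · show (((0 * g 0 1 + ((a : ZMod l).val : ℤ) * (M0 * N' : ℕ) * g 1 1 : ℤ)) : ZMod MM) =
      (((((a * δ : (ZMod l)ˣ) : ZMod l).val : ℤ) * (M0 * N' : ℕ) : ℤ) : ZMod MM)
    rw [show 0 * g 0 1 + ((a : ZMod l).val : ℤ) * (M0 * N' : ℕ) * g 1 1 =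
      (((a : ZMod l).val : ℤ) * g 1 1) * ((M0 * N' : ℕ) : ℤ) by ring,
      mul_cast_eq_iff (a := l) (by ring), Int.cast_mul, Int.cast_natCast, ZMod.natCast_zmod_val,
      hδ, Int.cast_natCast, ZMod.natCast_zmod_val, Units.val_mul]

theorem psi_xa {g : SL(2, ℤ)} (hg : g ∈ grp0 (M0 * N') l) {δ : (ZMod l)ˣ}
    (hδ : ((g 1 1 : ℤ) : ZMod l) = (δ : ZMod l)) (a : (ZMod l)ˣ) :
    P'.psi φ₀ hφ₀ g (xa P' a) = xa P' (a * δ) :=
  psi_xa_of_mem P' (pmGamma_mono (dvd_mul_right M0 N') hg.1) hg.2 hδ a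

/-- The root of unity of order `l`. -/
abbrev zetaL : LLˣ := topRoot P' ^ (M0 * N')

/-- The root of unity of order `M₀`. -/
abbrev zetaM : LLˣ := topRoot P' ^ (N' * l)

theorem coe_xa (a : (ZMod l)ˣ) : (xa P' a : LaurentSeries LL) = qExpand LL l
    (HahnSeries.ofPowerSeries ℤ LL (numSer M0 N' (zetaL P') (zetaM P') (a : ZMod l).val) /
      HahnSeries.ofPowerSeries ℤ LL (denSer M0 N' (zetaM P'))) := by
  haveI : NeZero (M0 * N' * l) := ⟨Nat.mul_ne_zero (NeZero.ne _) (NeZero.ne l)⟩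
  have e0 : ∀ w : LLˣ, wser MM (0 : ℤ) w = PowerSeries.expand l (NeZero.ne l)
      (PowerSeries.expand (M0 * N') (NeZero.ne _) (wser 1 0 w)) := fun w => by
    rw [← expand_expand' (r := M0 * N' * l) (by ring)]
    exact wser_of_eq 1 (M0 * N' * l) MM (by ring) (by ring) w
  have e1 : ∀ w : LLˣ, wser MM ((N' * l : ℕ) : ℤ) w = PowerSeries.expand l (NeZero.ne l)
      (PowerSeries.expand N' (NeZero.ne _) (wser M0 1 w)) := fun w => by
    rw [← expand_expand' (r := N' * l) (by ring)]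
    exact wser_of_eq M0 (N' * l) MM rfl (by ring) w
  rw [xa, P'.coe_redF, red_wqM, map_div₀, Kronecker.qExpand_ofPowerSeries,
    Kronecker.qExpand_ofPowerSeries, numSer, denSer, map_sub, map_sub, map_sub]
  simp only [wSer, lVec, mVec, e0, e1, zero_mul, one_mul, zpow_zero, zpow_natCast]
  rw [← Nat.cast_mul, zpow_natCast]
  simp only [zetaL, zetaM, topRoot, map_sub, ← pow_mul, mul_comm ((a : ZMod l).val)]

theorem coe_psi_S_xa (a : (ZMod l)ˣ) :
    (P'.psi φ₀ hφ₀ ModularGroup.S (xa P' a) : LaurentSeries LL) =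
    HahnSeries.ofPowerSeries ℤ LL (numSer₂ M0 N' l (zetaM P') (a : ZMod l).val) /
      HahnSeries.ofPowerSeries ℤ LL (denSer₂ M0 N' l (zetaM P')) := by
  rw [xa, P'.psi_redF, transl_wqM, P'.coe_redF, red_wqM, numSer₂, denSer₂, map_sub, map_sub,
    map_sub]
  have e0 : ∀ w : LLˣ, wser MM (0 : ℤ) w =
      PowerSeries.expand (N' * l) (NeZero.ne _) (wser M0 0 w) := fun w =>
    wser_of_eq M0 (N' * l) MM rfl (by ring) w
  have e1 : ∀ w : LLˣ, wser MM ((N' * l : ℕ) : ℤ) w =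
      PowerSeries.expand (N' * l) (NeZero.ne _) (wser M0 1 w) := fun w =>
    wser_of_eq M0 (N' * l) MM rfl (by ring) w
  have e2 : ∀ w : LLˣ, wser MM (((a : ZMod l).val : ℤ) * (M0 * N' : ℕ)) w =
      PowerSeries.expand (M0 * N') (NeZero.ne _) (wser l ((a : ZMod l).val : ℤ) w) := fun w =>
    wser_of_eq l (M0 * N') MM (by ring) rfl w
  simp only [wSer, lVec, mVec, GoodModel.vmul, ModularGroup.coe_S, Matrix.of_apply,
    Matrix.cons_val_zero, Matrix.cons_val_one, mul_zero, zero_mul, one_mul, mul_one, zero_add,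
    add_zero, mul_neg, neg_zero, e0, e1, e2, zpow_zero, zpow_neg, zpow_natCast, zetaM, topRoot, map_sub]

end FLTAgent.Lowering.P3.Levels
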