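import Fermat.Agent.Lowering.P3.Interface
import Fermat.Agent.Lowering.P3.Levels.Symmetry
import Fermat.Agent.Lowering.P3.Levels.Transfer

/-!
# The Kummer cover of the sheets at `l`: statements

`F₁` is the field of `±Γ(n) ∩ ±Γ₁(l)` over the field `F₀` of `±Γ(n) ∩ Γ₀(l)`. The first target is
the absence of ramification in `F₁ / F₀`, the second the equivariance of the first sheet for
translations lifted into `Γ(l)`.
-/

set_option autoImplicit false
set_option linter.unusedSectionVars false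
set_option synthInstance.maxHeartbeats 400000

noncomputable section

open AlgebraicCurve FLTAgent.Curves IsLocalRing
open scoped MatrixGroups

namespace FLTAgent.Lowering.P3.Levels

open FLTAgent.DeligneSerre

local notation "LL" => AlgebraicClosure ℚ

section Inclusion

variable {κ : LL →+* ℂ} {M0 N' l : ℕ} [NeZero M0] [NeZero N'] [NeZero l] [NeZero (M0 * N')]
  [NeZero (N' * l)] [NeZero (M0 * (N' * l))] (P' : Frame κ.range M0 (N' * l))

/-- The field of `±Γ(n) ∩ Γ₀(l)` inside that of `±Γ(n) ∩ ±Γ₁(l)`. -/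
def incl01 : fldQ P' (grp0 (M0 * N') l) →ₐ[LL] fldQ P' (grp1 (M0 * N') l) :=
  IntermediateField.inclusion (fldQ_mono (grp1_le_grp0 (M0 * N') l))

theorem coe_incl01 (x : fldQ P' (grp0 (M0 * N') l)) :
    (incl01 P' x : LaurentSeries LL) = (x : LaurentSeries LL) := rfl

end Inclusion

/-- The extension of `±Γ(n) ∩ Γ₀(l)` by `±Γ(n) ∩ ±Γ₁(l)` is unramified. -/
def TargetUnramified : Prop :=
  ∀ {κ : LL →+* ℂ} {M0 N' l : ℕ} [NeZero M0] [NeZero N'] [NeZero l] [NeZero (M0 * N')]
    [NeZero (N' * l)] [NeZero (M0 * (N' * l))] [Fact l.Prime] (P' : Frame κ.range M0 (N' * l)),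
    (M0 * N').Coprime l → 4 ≤ M0 * N' → 5 ≤ l →
    ∀ [IsFunctionField LL (fldQ P' (grp0 (M0 * N') l))]
      [IsFunctionField LL (fldQ P' (grp1 (M0 * N') l))]
      (x : fldQ P' (grp1 (M0 * N') l)) (U : fldQ P' (grp0 (M0 * N') l)) (m : ℕ),
      x ^ m = incl01 P' U → ∀ v : Place LL (fldQ P' (grp0 (M0 * N') l)), (m : ℤ) ∣ v.ord U

/-- On the first sheet the translations which are trivial modulo `l` commute with reduction. -/
def TargetSheetPsi : Prop :=
  ∀ {κ : LL →+* ℂ} {M0 N' l : ℕ} [NeZero M0] [NeZero N'] [NeZero l] [NeZero (M0 * N')]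
    [NeZero (N' * l)] [NeZero (M0 * (N' * l))] [Fact l.Prime] {V : ValuationSubring LL}
    [IsAlgClosed (ResidueField V)] [CharP (ResidueField V) l] (d : Data κ M0 N' l V)
    [IsFunctionField LL d.FC] [IsFunctionField LL d.F₀] [IsFunctionField (ResidueField V) d.Fb]
    (g g' : SL(2, ℤ)), g' ∈ CongruenceSubgroup.Gamma l → g⁻¹ * g' ∈ pmGamma (M0 * N') →
    ∀ (f : d.F₀) (h : d.Fb), d.sheet.R₁.Res f h →
      ∃ f' : d.F₀, up (grp0 (M0 * N') l) f' =
          d.top.psi (toLL κ) (toLL_surjective κ) g' (up (grp0 (M0 * N') l) f) ∧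
        d.sheet.R₁.Res f' (d.fr.psi d.red₀ d.red₀_surj g h)

end FLTAgent.Lowering.P3.Levels
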