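import Fermat.Agent.Lowering.P3.Kummer.Functions
import Fermat.Agent.Lowering.P3.Kummer.Character
import Fermat.Agent.Lowering.P3.Levels.Transfer

/-!
# The parameter of the Kummer cover and its residues on the two sheets
-/

set_option autoImplicit false
set_option linter.unusedSectionVars false
set_option linter.style.haveILetI false
set_option maxHeartbeats 1600000
set_option synthInstance.maxHeartbeats 400000

noncomputable section

open UpperHalfPlane hiding I I_re I_im
open Filter Topology Complex Function FLTAgent.ModEq FLTAgent.GoodModel ModularCurve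
open AlgebraicCurve FLTAgent.Curves IsLocalRing
open FLTAgent.Specialization (laurentReduction IsGauss coeffMap_subtype_injective)
open scoped MatrixGroups

namespace FLTAgent.Lowering.P3.Levels

open FLTAgent.DeligneSerre

local notation "LL" => AlgebraicClosure ℚ

theorem exists_unit_lowerRight {l : ℕ} {g : SL(2, ℤ)} (hg : g ∈ CongruenceSubgroup.Gamma0 l) :
    ∃ δ : (ZMod l)ˣ, ((g 1 1 : ℤ) : ZMod l) = (δ : ZMod l) := by
  have hdet := congrArg (fun z : ℤ => (z : ZMod l))
    (Matrix.det_fin_two (g : Matrix (Fin 2) (Fin 2) ℤ))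
  rw [g.det_coe] at hdet
  push_cast at hdet
  rw [CongruenceSubgroup.Gamma0_mem.mp hg, mul_zero, sub_zero, mul_comm] at hdet
  exact ⟨(IsUnit.of_mul_eq_one _ hdet.symm).unit, (IsUnit.unit_spec _).symm⟩

theorem toLL_spec {κ : LL →+* ℂ} (s : κ.range) : κ (toLL κ s) = (s : ℂ) :=
  congrArg Subtype.val ((rangeEquiv κ).apply_symm_apply s)

variable {κ : LL →+* ℂ} {M0 N' l : ℕ} [NeZero M0] [NeZero N'] [NeZero l] [NeZero (M0 * N')]
  [NeZero (N' * l)] [NeZero (M0 * (N' * l))] {V : ValuationSubring LL} [Fact l.Prime]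
  [CharP (ResidueField V) l]

namespace Data

variable (d : Data κ M0 N' l V)

/-- The field of `±Γ(n) ∩ ±Γ₁(l)`. -/
abbrev F₁ : IntermediateField LL (LaurentSeries LL) := d.fldOf (grp1 (M0 * N') l)

theorem coe_root_fr : (((Units.map (d.e : d.S →* V) d.fr.ξ : Vˣ) : V) : LL) =
    ((topRoot d.top ^ l : LLˣ) : LL) := by
  show (d.e d.fr.ξ : LL) = _
  refine κ.injective ?_
  rw [d.coe_e, toLL_spec, Units.val_pow_eq_pow_val, map_pow]
  show ((d.fr.ξ : d.S) : ℂ) = κ (toLL κ (d.top.ξ : κ.range)) ^ l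
  rw [toLL_spec, d.fr.hξ, d.top.hξ]
  have : ((M0 * N' : ℕ) : ℂ) ≠ 0 := Nat.cast_ne_zero.mpr (NeZero.ne _)
  have : (l : ℂ) ≠ 0 := Nat.cast_ne_zero.mpr (NeZero.ne l)
  simp only [zetaN, Units.val_mk0]
  rw [← Complex.exp_nat_mul]
  congr 1
  push_cast at *
  field_simp

/-- The root of unity of order `M₀` in the valuation ring. -/
def zV : Vˣ := Units.map (d.e : d.S →* V) d.fr.ξ ^ N'

theorem map_zV : Units.map (V.subtype : V →* LL) d.zV = zetaM d.top := by
  refine Units.ext ?_
  rw [zV, map_pow, Units.val_pow_eq_pow_val]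
  show (((Units.map (d.e : d.S →* V) d.fr.ξ : Vˣ) : V) : LL) ^ N' = _
  rw [d.coe_root_fr, ← Units.val_pow_eq_pow_val, ← pow_mul, mul_comm]

theorem isUnit_one_sub_zV_inv : IsUnit (1 - ((d.zV⁻¹ : Vˣ) : V)) := by
  have hn : ¬ ((M0 * N' : ℕ) : ℤ) ∣ -(N' : ℤ) := fun h => by
    rw [dvd_neg] at h
    have h1 := Nat.le_of_dvd (Nat.pos_of_ne_zero (NeZero.ne N')) (Int.natCast_dvd_natCast.mp h)
    have := Nat.pos_of_ne_zero (NeZero.ne N')
    rcases d.fr.hM with rfl | rfl <;> omega
  have h := (isUnit_one_sub d.fr.ξ d.fr.hξ d.fr.hv _ hn).map d.e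
  rw [map_sub, map_one] at h
  convert h using 2
  show _ = ((Units.map (d.e : d.S →* V) (d.fr.ξ ^ (-(N' : ℤ))) : Vˣ) : V)
  rw [map_zpow, zpow_neg, zpow_natCast, zV]

include d in
theorem not_M0_dvd_one : ¬ (M0 : ℤ) ∣ (1 : ℤ) := fun h => by
  have := Int.le_of_dvd one_pos h
  rcases d.fr.hM with rfl | rfl <;> omega

/-- The constants of the translates. -/
def coef (χ : SqChar l V) (a : (ZMod l)ˣ) : LL :=
  ((χ.ψ a : V) : LL) * ((l - 1 : ℕ) : LL)⁻¹

/-- The Kummer parameter before scaling. -/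
def topParam (χ : SqChar l V) : d.top.fld (toLL κ) :=
  ∑ a : (ZMod l)ˣ, algebraMap LL (d.top.fld (toLL κ)) (coef χ a) * xa d.top a

theorem psi_topParam (χ : SqChar l V) {g : SL(2, ℤ)} (hg : g ∈ grp0 (M0 * N') l)
    {δ : (ZMod l)ˣ} (hδ : ((g 1 1 : ℤ) : ZMod l) = (δ : ZMod l)) :
    d.top.psi (toLL κ) (toLL_surjective κ) g (d.topParam χ) =
      algebraMap LL (d.top.fld (toLL κ)) ((χ.ψ δ⁻¹ : V) : LL) * d.topParam χ := by
  rw [topParam, map_sum, Finset.mul_sum]
  refine Fintype.sum_equiv (Equiv.mulRight δ) _ _ fun a => ?_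
  rw [map_mul, AlgHom.commutes, psi_xa d.top hg hδ, ← mul_assoc, ← map_mul]
  congr 2
  rw [Equiv.coe_mulRight, coef, coef, ← mul_assoc]
  congr 1
  show _ = ((χ.ψ δ⁻¹ : V) : LL) * ((χ.ψ (a * δ) : V) : LL)
  rw [mul_comm, ← MulMemClass.coe_mul, ← Units.val_mul, ← map_mul, mul_inv_cancel_right]

theorem psi_topParam_of_grp1 (χ : SqChar l V) {g : SL(2, ℤ)} (hg : g ∈ grp1 (M0 * N') l) :
    d.top.psi (toLL κ) (toLL_surjective κ) g (d.topParam χ) = d.topParam χ := by
  obtain ⟨-, h | h⟩ := mem_pmGamma1_iff.mp hg.2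
  · rw [d.psi_topParam χ (grp1_le_grp0 _ _ hg) (δ := 1) h, inv_one, map_one]
    simp
  · rw [d.psi_topParam χ (grp1_le_grp0 _ _ hg) (δ := -1) (by simpa using h), inv_neg, inv_one,
      χ.neg]
    simp

end Data

/-- A parameter with the residues `1 / G` and `ρ / lam` on the two sheets. -/
structure Param (d : Data κ M0 N' l V) (χ : SqChar l V) where
  cx : d.F₁
  up_cx : up (grp1 (M0 * N') l) cx = d.topParam χ
  lam : V
  lam_ne : (lam : LL) ≠ 0
  lam_red : residue V lam = 0
  G : LaurentSeries d.S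
  G_spec : (wdiff M0 (1, 0) (1, 1), G) ∈ sPairs d.S (M0 * N')
  G_ne : coeffMap d.red₀ G ≠ 0
  res₁ : (laurentReduction (residue V) d.F₁).Res ((lam : LL) • cx) (coeffMap d.red₀ G)⁻¹
  ρ : LaurentSeries (ResidueField V)
  ρ_ne : ρ ≠ 0
  res₂ : (laurentReduction (residue V) d.F₁).Res (wInv d.cop (Or.inr rfl) cx) ρ

namespace Data

variable (d : Data κ M0 N' l V)

theorem exists_root_l : ∃ ζV : Vˣ, Units.map (V.subtype : V →* LL) ζV = zetaL d.top ∧
    residue V (ζV : V) = 1 ∧ ((ζV : V) : LL) ≠ 1 := by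
  have hprim : IsPrimitiveRoot ((zetaL d.top : LLˣ) : LL) l := by
    rw [zetaL, Units.val_pow_eq_pow_val]
    exact (topRoot_prim d.top).pow (Nat.pos_of_ne_zero (NeZero.ne _)) (by ring)
  obtain ⟨u, hu⟩ := exists_unit_of_pow_eq_one V (NeZero.ne l) hprim.pow_eq_one
  refine ⟨u, Units.ext hu, ?_, hu ▸ hprim.ne_one (Fact.out : l.Prime).one_lt⟩
  have h1 : residue V (u : V) ^ l = 1 := by
    rw [← map_pow, show (u : V) ^ l = 1 from Subtype.ext (by
      show ((u : V) : LL) ^ l = 1
      rw [hu, hprim.pow_eq_one]), map_one]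
  have h2 : (residue V (u : V) - 1) ^ l = 0 := by
    rw [sub_pow_char, h1, one_pow, sub_self]
  exact sub_eq_zero.1 (pow_eq_zero_iff (NeZero.ne l) |>.1 h2)

theorem nonempty_param (χ : SqChar l V) (h5 : 5 ≤ l) : Nonempty (Param d χ) := by
  classical
  obtain ⟨cx, hcx⟩ := exists_up_of_fixed d.top (H := grp1 (M0 * N') l) (T_mem (Or.inr rfl))
    (z := d.topParam χ) ((d.top.mem_fixedFld (toLL κ) (toLL_surjective κ)).2 fun g hg => by
      rw [d.top.act_apply, d.psi_topParam_of_grp1 χ (inv_mem hg)])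
  obtain ⟨ζV, hζmap, hζres, hζne⟩ := d.exists_root_l
  have hsub : ∀ v : V, V.subtype v = (v : LL) := fun _ => rfl
  -- `l - 1` is a unit with residue `-1`
  have hres : residue V ((l - 1 : ℕ) : V) = -1 := by
    rw [map_natCast, Nat.cast_sub (Fact.out : l.Prime).one_le, CharP.cast_eq_zero, Nat.cast_one,
      zero_sub]
  obtain ⟨u, hu⟩ := (residue_ne_zero_iff_isUnit _).1
    (by rw [hres]; exact neg_ne_zero.2 one_ne_zero)
  let ω : (ZMod l)ˣ → V := fun a => (χ.ψ a : V) * ((u⁻¹ : Vˣ) : V)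
  have hω : ∀ a, (ω a : LL) = coef χ a := fun a => by
    have h1 : ((u : V) : LL) * ((u⁻¹ : Vˣ) : V) = 1 := by
      rw [← MulMemClass.coe_mul, Units.mul_inv, OneMemClass.coe_one]
    rw [hu] at h1
    show ((χ.ψ a : V) : LL) * ((u⁻¹ : Vˣ) : V) = _
    rw [coef, eq_inv_of_mul_eq_one_right h1]
    norm_cast
  have hωres : ∀ a : (ZMod l)ˣ, residue V (ω a) = -(ZMod.cast (a : ZMod l) : ResidueField V) ^ 2 := by
    intro a
    have h1 := congrArg (residue V) (Units.mul_inv u)
    rw [map_mul, hu, hres, map_one, neg_one_mul, neg_eq_iff_eq_neg] at h1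
    show residue V (_ * _) = _
    rw [map_mul, χ.res, h1, mul_neg, mul_one]
  set lam : V := (1 - (ζV : V)) ^ 2
  -- the first sheet
  let av : (ZMod l)ˣ → ℕ := fun a => (a : ZMod l).val
  have hval : ∀ a : (ZMod l)ˣ, ((av a : ℕ) : ResidueField V) = ZMod.cast (a : ZMod l) := fun a => by
    rw [ZMod.natCast_val]
  have hcne : ∀ a : (ZMod l)ˣ, (ZMod.cast (a : ZMod l) : ResidueField V) ≠ 0 := fun a h =>
    a.ne_zero ((map_eq_zero (ZMod.castHom (dvd_refl l) (ResidueField V))).1 h)
  have hgeo : ∀ a, IsUnit (∑ i ∈ Finset.range (av a), (ζV : V) ^ i) := fun a => by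
    refine (residue_ne_zero_iff_isUnit _).1 ?_
    rw [map_sum]
    simpa [map_pow, hζres, hval] using hcne a
  have h1z : ((M0 : ℕ) : ℤ) ∣ (1 : ℤ) → IsUnit (1 - (d.zV : V)) := fun h =>
    absurd h d.not_M0_dvd_one
  let nV : (ZMod l)ˣ → PowerSeries V := fun a =>
    PowerSeries.expand (M0 * N') (NeZero.ne _) (scaledSer ζV (av a)) -
      PowerSeries.C lam * PowerSeries.expand N' (NeZero.ne _) (wser M0 1 d.zV)
  have hdenV : ∀ {R : Type} [CommRing R] (f : V →+* R),
      (denSer M0 N' d.zV).map f = denSer M0 N' (Units.map (f : V →* R) d.zV) := by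
    intro R _ f
    rw [denSer, denSer, PowerSeries.map_expand, map_sub, map_wser f _ _ h1z,
      map_wser f _ (1 : Vˣ) (fun h => absurd h d.not_M0_dvd_one), map_one]
  have hnV : ∀ a, (nV a).map V.subtype =
      PowerSeries.C (lam : LL) * numSer M0 N' (zetaL d.top) (zetaM d.top) (av a) := fun a => by
    simp only [nV, numSer, map_sub, map_mul, PowerSeries.map_expand, PowerSeries.map_C,
      map_wser V.subtype _ _ h1z, d.map_zV, mul_sub]
    rw [map_scaledSer V.subtype ζV (hgeo a) (by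
      rw [map_sub, map_one, sub_ne_zero, hsub]; exact fun h => hζne h.symm), hζmap, map_mul,
      PowerSeries.expand_C, ← map_pow]
    rfl
  have hnVres : ∀ a : (ZMod l)ˣ, (nV a).map (residue V) =
      PowerSeries.C ((ZMod.cast (a : ZMod l) : ResidueField V) ^ 2)⁻¹ := fun a => by
    simp only [nV, map_sub, map_mul, PowerSeries.map_expand, PowerSeries.map_C,
      map_scaledSer_residue (residue V) ζV (hgeo a) hζres, PowerSeries.expand_C, hval,
      show residue V lam = 0 by simp [lam, hζres], map_zero, zero_mul, sub_zero]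
  obtain ⟨hn1, hn2, hn3, hab, -⟩ :=
    level_nz (n := M0 * N') (N' := N') d.fr.hM rfl
  obtain ⟨G, hG⟩ := exists_wdiff_unit d.fr.ξ d.fr.hξ d.fr.hv hn2 hn3 hab
  have hG' : (wdiff M0 (1, 0) (1, 1), (G : LaurentSeries d.S)) ∈ sPairs d.S (M0 * N') := by
    rw [← wdiff_mul_right M0 N' (1, 0) (1, 1)]
    simpa [aVec, bVec] using hG
  have hGred : coeffMap d.red₀ (G : LaurentSeries d.S) =
      coeffMap (residue V) (HahnSeries.ofPowerSeries ℤ V (denSer M0 N' d.zV)) := by
    rw [coeffMap_ofPowerSeries, hdenV, sPairs_unique hG (sPairs_wSer d.fr.ξ d.fr.hξ d.fr.hv hn2 hn3),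
      coeffMap_wSer d.red₀ (isUnit_one_sub d.fr.ξ d.fr.hξ d.fr.hv) hn2 hn3, wSer, denSer, map_sub,
      wser_of_eq M0 N' (M0 * N') rfl (show (aVec N').1 = 1 * (N' : ℤ) by simp [aVec]),
      wser_of_eq M0 N' (M0 * N') rfl (show (bVec N').1 = 1 * (N' : ℤ) by simp [bVec]), map_sub,
      map_sub]
    simp only [aVec, bVec, zpow_zero, zpow_natCast]
    rw [zV, map_pow]
    rfl
  have hGne : coeffMap d.red₀ (G : LaurentSeries d.S) ≠ 0 :=
    (G.isUnit.map (coeffMap d.red₀)).ne_zero
  have hb0 : coeffMap V.subtype (HahnSeries.ofPowerSeries ℤ V (denSer M0 N' d.zV)) ≠ 0 := fun h => by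
    refine hGne ?_
    rw [hGred, coeffMap_subtype_injective V (h.trans (map_zero _).symm), map_zero]
  -- the series of the parameter
  have hqcx : (cx : LaurentSeries LL) = (∑ a : (ZMod l)ˣ, algebraMap LL (LaurentSeries LL) (coef χ a) *
      HahnSeries.ofPowerSeries ℤ LL (numSer M0 N' (zetaL d.top) (zetaM d.top) (av a))) /
      HahnSeries.ofPowerSeries ℤ LL (denSer M0 N' (zetaM d.top)) := by
    refine qExpand_injective l ?_
    rw [← coe_up, hcx, map_div₀, map_sum, Finset.sum_div, topParam, AddSubmonoidClass.coe_finset_sum]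
    refine Finset.sum_congr rfl fun a _ => ?_
    rw [IntermediateField.coe_mul, IntermediateField.coe_algebraMap_apply, coe_xa, map_div₀,
      map_mul, mul_div_assoc]
    congr 1
    rw [algebraMap_laurentSeries_eq_single, qExpand_single, mul_zero]
  have hres₁ : (laurentReduction (residue V) d.F₁).Res ((lam : LL) • cx)
      (coeffMap d.red₀ (G : LaurentSeries d.S))⁻¹ := by
    have hg : IsGauss (residue V) (((lam : LL) • cx : d.F₁) : LaurentSeries LL)
        (HahnSeries.ofPowerSeries ℤ V (∑ a, PowerSeries.C (ω a) * nV a))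
        (HahnSeries.ofPowerSeries ℤ V (denSer M0 N' d.zV)) := by
      refine ⟨by rw [← hGred]; exact hGne, ?_⟩
      rw [coeffMap_ofPowerSeries, hdenV, d.map_zV] at hb0
      rw [IntermediateField.coe_smul, Algebra.smul_def, hqcx, coeffMap_ofPowerSeries,
        coeffMap_ofPowerSeries, hdenV, d.map_zV, mul_assoc, div_mul_cancel₀ _ hb0, map_sum,
        map_sum, Finset.mul_sum]
      refine Finset.sum_congr rfl fun a _ => ?_
      rw [map_mul, PowerSeries.map_C, hnV, hsub, hω]
      simp only [map_mul, HahnSeries.ofPowerSeries_C, algebraMap_laurentSeries_eq_single]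
      show _ = HahnSeries.single 0 _ * (HahnSeries.single 0 _ * _)
      ring
    convert res_of_gauss hg using 1
    rw [← hGred, coeffMap_ofPowerSeries, map_sum, Finset.sum_congr rfl fun a _ => (by
      rw [map_mul, PowerSeries.map_C, hnVres, hωres, ← map_mul, neg_mul,
        mul_inv_cancel₀ (pow_ne_zero 2 (hcne a))] :
      (PowerSeries.C (ω a) * nV a).map (residue V) = PowerSeries.C (-1 : ResidueField V)),
      Finset.sum_const, Finset.card_univ, ZMod.card_units, ← map_nsmul, nsmul_eq_mul,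
      Nat.cast_sub (Fact.out : l.Prime).one_le, CharP.cast_eq_zero, Nat.cast_one, zero_sub,
      neg_mul_neg, one_mul, map_one, map_one, one_div]
  -- the second sheet
  have hal : ∀ a : (ZMod l)ˣ, ((l : ℕ) : ℤ) ∣ (av a : ℤ) → False := fun a h =>
    not_dvd_val a (Int.natCast_dvd_natCast.mp h)
  let aV : PowerSeries V := ∑ a, PowerSeries.C (ω a) *
    PowerSeries.expand (M0 * N') (NeZero.ne _) (wser l (av a : ℤ) 1)
  let bV : PowerSeries V := denSer₂ M0 N' l d.zV
  have hbV : bV.map V.subtype = denSer₂ M0 N' l (zetaM d.top) := by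
    simp only [bV, denSer₂, PowerSeries.map_expand, map_sub]
    rw [map_wser _ _ _ (fun _ => d.isUnit_one_sub_zV_inv),
      map_wser _ _ _ (fun h => absurd h d.not_M0_dvd_one), map_inv, d.map_zV]
  have hbV0 : residue V (PowerSeries.coeff 0 bV) ≠ 0 := by
    refine (residue_ne_zero_iff_isUnit _).2 ?_
    simp only [bV, denSer₂, PowerSeries.coeff_zero_eq_constantCoeff_apply,
      PowerSeries.constantCoeff_expand]
    rw [← PowerSeries.coeff_zero_eq_constantCoeff_apply, map_sub, wser_coeff_zero, wser_coeff_zero,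
      if_pos (dvd_zero _), if_neg d.not_M0_dvd_one, sub_zero]
    obtain ⟨v, hv⟩ := d.isUnit_one_sub_zV_inv
    rw [← hv, Ring.inverse_unit]
    exact (Units.isUnit _).mul ((Units.isUnit _).pow 2)
  have hbne : coeffMap (residue V) (HahnSeries.ofPowerSeries ℤ V bV) ≠ 0 := fun h => by
    have h1 := congrArg (fun F : LaurentSeries (ResidueField V) => F.coeff ((0 : ℕ) : ℤ)) h
    simp only [coeffMap_coeff, HahnSeries.ofPowerSeries_apply_coeff] at h1
    exact hbV0 h1
  have haV : coeffMap (residue V) (HahnSeries.ofPowerSeries ℤ V aV) ≠ 0 := fun h => by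
    have h1 := congrArg
      (fun F : LaurentSeries (ResidueField V) => F.coeff ((M0 * N' * 1 : ℕ) : ℤ)) h
    simp only [coeffMap_coeff, HahnSeries.ofPowerSeries_apply_coeff] at h1
    simp only [HahnSeries.coeff_zero, aV, map_sum, PowerSeries.coeff_C_mul,
      PowerSeries.coeff_expand_mul] at h1
    have hterm : ∀ a : (ZMod l)ˣ, residue V (ω a * PowerSeries.coeff 1 (wser l (av a : ℤ) 1)) =
        (if a = 1 then (-1 : ResidueField V) else 0) + (if a = -1 then -1 else 0) := fun a => by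
      have hpos : 0 < av a := Nat.pos_of_ne_zero fun h0 => hal a (by rw [h0]; simp)
      have hlt : av a < l := ZMod.val_lt _
      have i1 : av a = 1 ↔ a = 1 := by
        refine ⟨fun h0 => Units.ext ?_, fun h0 => ?_⟩
        · rw [← ZMod.natCast_zmod_val (a : ZMod l)]
          show ((av a : ℕ) : ZMod l) = 1
          rw [h0, Nat.cast_one]
        · simp only [av, h0, Units.val_one]
          exact ZMod.val_one l
      have i2 : av a + 1 = l ↔ a = -1 := by
        refine ⟨fun h0 => Units.ext ?_, fun h0 => ?_⟩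
        · rw [Units.val_neg, Units.val_one, eq_neg_iff_add_eq_zero,
            ← ZMod.natCast_zmod_val (a : ZMod l)]
          show ((av a : ℕ) : ZMod l) + 1 = 0
          rw [← Nat.cast_one, ← Nat.cast_add, h0, ZMod.natCast_self]
        · have hd : l ∣ av a + 1 := by
            rw [← ZMod.natCast_eq_zero_iff, Nat.cast_add, Nat.cast_one]
            simp [av, h0]
          have := Nat.le_of_dvd (by omega) hd
          omega
      rw [coeff_one_wser hpos hlt, map_mul, map_add, hωres]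
      simp only [i1, i2, apply_ite (residue V), map_one, map_zero]
      rw [← ZMod.castHom_apply (h := dvd_refl l)]
      split_ifs with h0 h0' <;> simp_all
    rw [Finset.sum_congr rfl fun a _ => hterm a, Finset.sum_add_distrib,
      Finset.sum_ite_eq' Finset.univ, Finset.sum_ite_eq' Finset.univ, if_pos (Finset.mem_univ _),
      if_pos (Finset.mem_univ _)] at h1
    have h2 : ((2 : ℕ) : ResidueField V) = 0 := by push_cast; linear_combination -h1
    have := Nat.le_of_dvd (by norm_num) ((CharP.cast_eq_zero_iff (ResidueField V) l 2).1 h2)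
    omega
  have hres₂ : (laurentReduction (residue V) d.F₁).Res (wInv d.cop (Or.inr rfl) cx)
      (coeffMap (residue V) (HahnSeries.ofPowerSeries ℤ V aV) /
        coeffMap (residue V) (HahnSeries.ofPowerSeries ℤ V bV)) := by
    refine res_of_gauss ⟨hbne, ?_⟩
    have hden0 : HahnSeries.ofPowerSeries ℤ LL (denSer₂ M0 N' l (zetaM d.top)) ≠ 0 := by
      rw [← hbV, ← coeffMap_ofPowerSeries]
      intro h
      refine hbne ?_
      rw [coeffMap_subtype_injective V (h.trans (map_zero _).symm), map_zero]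
    rw [coe_wInv, hcx, topParam, map_sum, AddSubmonoidClass.coe_finset_sum, coeffMap_ofPowerSeries,
      coeffMap_ofPowerSeries, hbV, Finset.sum_mul]
    rw [Finset.sum_congr rfl fun a _ => (by
      rw [map_mul, AlgHom.commutes, IntermediateField.coe_mul,
        IntermediateField.coe_algebraMap_apply, coe_psi_S_xa, mul_assoc, div_mul_cancel₀ _ hden0] :
      ((d.top.psi (toLL κ) (toLL_surjective κ) ModularGroup.S
        (algebraMap LL (d.top.fld (toLL κ)) (coef χ a) * xa d.top a) : d.top.fld (toLL κ)) :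
          LaurentSeries LL) * HahnSeries.ofPowerSeries ℤ LL (denSer₂ M0 N' l (zetaM d.top)) =
      algebraMap LL (LaurentSeries LL) (coef χ a) *
        HahnSeries.ofPowerSeries ℤ LL (numSer₂ M0 N' l (zetaM d.top) (av a)))]
    have hsum : ∑ a, algebraMap LL (LaurentSeries LL) (coef χ a) = 0 := by
      rw [← map_sum]
      simp only [coef, ← Finset.sum_mul, χ.sum_eq_zero h5, zero_mul, map_zero]
    simp only [numSer₂, map_sub, mul_sub, Finset.sum_sub_distrib, ← Finset.sum_mul, hsum,
      zero_mul, sub_zero, aV, map_sum, map_mul, PowerSeries.map_C, PowerSeries.map_expand,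
      HahnSeries.ofPowerSeries_C]
    refine Finset.sum_congr rfl fun a _ => ?_
    rw [map_wser _ _ _ (fun h => (hal a h).elim), map_one, algebraMap_laurentSeries_eq_single,
      hsub, hω]
    rfl
  exact ⟨⟨cx, hcx, lam, by
    simp only [lam]
    push_cast
    exact pow_ne_zero _ (sub_ne_zero.2 (Ne.symm hζne)), by simp [lam, hζres], G, hG', hGne, hres₁,
    _, div_ne_zero haV hbne, hres₂⟩⟩

theorem dQ_cx {χ : SqChar l V} (P : Param d χ) {g : SL(2, ℤ)} (hg : g ∈ grp0 (M0 * N') l)
    {δ : (ZMod l)ˣ} (hδ : ((g 1 1 : ℤ) : ZMod l) = (δ : ZMod l)) :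
    dQ (Or.inr rfl) hg P.cx = algebraMap LL d.F₁ ((χ.ψ δ⁻¹ : V) : LL) * P.cx := by
  refine (up (grp1 (M0 * N') l)).toRingHom.injective ?_
  show up _ _ = up _ _
  rw [up_dQ, P.up_cx, d.psi_topParam χ hg hδ, map_mul, AlgHom.commutes, P.up_cx]

end Data

end FLTAgent.Lowering.P3.Levels
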